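import Mathlib
import Fermat.Agent.ModFun.CharPoly
import Fermat.Agent.ModFun.FnField
import Fermat.Agent.ESCore.LocalParam

set_option autoImplicit false

/-!
# Fields of modular functions

For `ι : K →+* ℂ` and `M ≥ 1`, `modFun ι M` is the ring of holomorphic functions on `ℍ` all of whose
`SL₂(ℤ)`-translates have expansions over `K` in `q ^ (1 / M)`. We study its fraction field.
-/

open UpperHalfPlane Polynomial Fermat.Agent.ModFun Fermat.Agent.ESCore
open scoped MatrixGroups Manifold IntermediateField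

noncomputable section

namespace Fermat.Agent.KL

variable {K : Type*} [Field K] (ι : K →+* ℂ) (M : ℕ)

/-- inclusion in the ring of holomorphic functions -/
def toHol : modFun ι M →+* HolRing where
  toFun f := ⟨f.1, f.2.1⟩
  map_one' := rfl
  map_mul' _ _ := rfl
  map_zero' := rfl
  map_add' _ _ := rfl

theorem toHol_injective : Function.Injective (toHol ι M) := by
  intro f g h
  exact Subtype.ext (congrArg (fun x : HolRing => x.1) h)

instance : IsDomain (modFun ι M) := (toHol_injective ι M).isDomain _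

/-- the constants -/
def constHom : K →+* modFun ι M where
  toFun a := ⟨fun _ => ι a, const_mem_modFun a⟩
  map_one' := by ext; exact ι.map_one
  map_mul' a b := by ext; exact ι.map_mul a b
  map_zero' := by ext; exact ι.map_zero
  map_add' a b := by ext; exact ι.map_add a b

instance : Algebra K (modFun ι M) := (constHom ι M).toAlgebra

theorem algebraMap_modFun_apply (a : K) (τ : ℍ) :
    ((algebraMap K (modFun ι M) a : modFun ι M) : ℍ → ℂ) τ = ι a := rfl

/-- translation by `γ` -/
def pull (γ : SL(2, ℤ)) : modFun ι M →+* modFun ι M where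
  toFun f := ⟨fun τ => f.1 (γ • τ), smul_mem_modFun f.2 γ⟩
  map_one' := rfl
  map_mul' _ _ := rfl
  map_zero' := rfl
  map_add' _ _ := rfl

theorem pull_apply (γ : SL(2, ℤ)) (f : modFun ι M) (τ : ℍ) :
    ((pull ι M γ f : modFun ι M) : ℍ → ℂ) τ = (f : ℍ → ℂ) (γ • τ) := rfl

theorem pull_pull (γ δ : SL(2, ℤ)) (f : modFun ι M) :
    pull ι M γ (pull ι M δ f) = pull ι M (δ * γ) f := by
  ext τ
  rw [pull_apply, pull_apply, pull_apply, mul_smul]

theorem pull_one (f : modFun ι M) : pull ι M 1 f = f := by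
  ext τ
  rw [pull_apply, one_smul]

theorem pull_injective (γ : SL(2, ℤ)) : Function.Injective (pull ι M γ) := by
  intro f g h
  have := congrArg (pull ι M γ⁻¹) h
  rwa [pull_pull, pull_pull, mul_inv_cancel, pull_one, pull_one] at this

theorem pull_algebraMap (γ : SL(2, ℤ)) (a : K) :
    pull ι M γ (algebraMap K (modFun ι M) a) = algebraMap K (modFun ι M) a := rfl

variable [NeZero M]

omit [NeZero M] in
theorem exists_exp_one (f : ℍ → ℂ) (hf : f ∈ modFun ι M) :
    ∃ F : LaurentSeries K, HasExp ι (qN M) f F := by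
  obtain ⟨F, hF⟩ := hf.2 1
  exact ⟨F, hF.congr fun τ => by rw [one_smul]⟩

/-- the expansion of `f ∘ γ` -/
def expAt (γ : SL(2, ℤ)) : modFun ι M →+* LaurentSeries K :=
  (expHom ι ι.injective (isParam_qN M) (modFun ι M) (exists_exp_one ι M)).comp (pull ι M γ)

theorem expAt_spec (γ : SL(2, ℤ)) (f : modFun ι M) :
    HasExp ι (qN M) (fun τ => (f : ℍ → ℂ) (γ • τ)) (expAt ι M γ f) :=
  expHom_spec ι ι.injective (isParam_qN M) (modFun ι M) (exists_exp_one ι M) (pull ι M γ f)

theorem expAt_eq {γ : SL(2, ℤ)} {f : modFun ι M} {F : LaurentSeries K}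
    (h : HasExp ι (qN M) (fun τ => (f : ℍ → ℂ) (γ • τ)) F) : expAt ι M γ f = F :=
  (expAt_spec ι M γ f).unique ι.injective (isParam_qN M) h

theorem expAt_injective (γ : SL(2, ℤ)) : Function.Injective (expAt ι M γ) := by
  rw [injective_iff_map_eq_zero]
  intro f hf
  have h1 := expAt_spec ι M γ f
  rw [hf] at h1
  have h2 : (fun τ => (f : ℍ → ℂ) (γ • τ)) = 0 := h1.fun_unique (qN_ne_zero M) hasExp_zero
  apply pull_injective ι M γ
  rw [map_zero]
  ext τ
  exact congrFun h2 τ

theorem expAt_algebraMap (γ : SL(2, ℤ)) (a : K) :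
    expAt ι M γ (algebraMap K (modFun ι M) a) = HahnSeries.C a :=
  expAt_eq ι M (HasExp.const a)

/-- the fraction field of the ring of modular functions -/
abbrev FF : Type _ := FractionRing (modFun ι M)

/-- the expansion of `f ∘ γ` on the fraction field -/
def expF (γ : SL(2, ℤ)) : FF ι M →+* LaurentSeries K :=
  IsFractionRing.lift (expAt_injective ι M γ)

theorem expF_algebraMap (γ : SL(2, ℤ)) (f : modFun ι M) :
    expF ι M γ (algebraMap (modFun ι M) (FF ι M) f) = expAt ι M γ f :=
  IsFractionRing.lift_algebraMap _ _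

theorem expF_const (γ : SL(2, ℤ)) (a : K) :
    expF ι M γ (algebraMap K (FF ι M) a) = HahnSeries.C a := by
  rw [IsScalarTower.algebraMap_apply K (modFun ι M) (FF ι M), expF_algebraMap, expAt_algebraMap]

/-- extension of an injective homomorphism from the ring of holomorphic functions -/
def holF (ψ : HolRing →+* PowerSeries ℂ) (hψ : Function.Injective ψ) :
    FF ι M →+* LaurentSeries ℂ :=
  IsFractionRing.lift (g := ((HahnSeries.ofPowerSeries ℤ ℂ).comp ψ).comp (toHol ι M))
    ((HahnSeries.ofPowerSeries_injective.comp hψ).comp (toHol_injective ι M))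

omit [NeZero M] in
theorem holF_algebraMap (ψ : HolRing →+* PowerSeries ℂ) (hψ : Function.Injective ψ)
    (f : modFun ι M) : holF ι M ψ hψ (algebraMap (modFun ι M) (FF ι M) f) =
      HahnSeries.ofPowerSeries ℤ ℂ (ψ (toHol ι M f)) :=
  IsFractionRing.lift_algebraMap _ _

/-- `J` as an element of `modFun` -/
def JM : modFun ι M := ⟨J, mdiff_J, fun γ => ⟨_, ((hasExp_J' ι).level M).congr fun τ =>
  (J_smul γ τ).symm⟩⟩

theorem pull_JM (γ : SL(2, ℤ)) : pull ι M γ (JM ι M) = JM ι M := by
  ext τ
  exact J_smul γ τ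

/-- invariant functions are polynomials in `J`. -/
theorem exists_aeval_JM {ζ : Kˣ} (hζ : ι ζ = Complex.exp (2 * Real.pi * Complex.I / M))
    {f : modFun ι M} (hf : ∀ γ, pull ι M γ f = f) : ∃ p : K[X], f = aeval (JM ι M) p := by
  have h1 := expAt_spec ι M 1 f
  have hinv : ∀ (γ : SL(2, ℤ)) (τ : ℍ), (f : ℍ → ℂ) (γ • τ) = (f : ℍ → ℂ) τ := by
    intro γ τ
    rw [← pull_apply, hf]
  have h2 : HasExp ι (qN M) (f : ℍ → ℂ) (expAt ι M 1 f) := h1.congr fun τ => by rw [one_smul]
  obtain ⟨G, hG, -⟩ := h2.unlevel ι.injective (ζ := ζ) hζ fun τ => by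
    rw [← modular_T_smul]
    exact hinv _ _
  obtain ⟨P, hP, -⟩ := exists_polynomial ι.injective f.2.1 hinv hG
  refine ⟨P, ?_⟩
  ext τ
  rw [hP]
  have h3 : ((Pi.evalRingHom (fun _ : ℍ => ℂ) τ).comp ((modFun ι M).subtype.comp
      (aeval (JM ι M) : K[X] →ₐ[K] modFun ι M).toRingHom)) = eval₂RingHom ι (J τ) := by
    refine Polynomial.ringHom_ext (fun a => ?_) ?_
    · simp only [RingHom.comp_apply, coe_eval₂RingHom, eval₂_C]
      change (((aeval (JM ι M) (C a) : modFun ι M)) : ℍ → ℂ) τ = ι a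
      rw [aeval_C]
      rfl
    · simp only [RingHom.comp_apply, coe_eval₂RingHom, eval₂_X]
      change (((aeval (JM ι M) X : modFun ι M)) : ℍ → ℂ) τ = J τ
      rw [aeval_X]
      rfl
  have h4 := congrArg (fun g : K[X] →+* ℂ => g P) h3
  exact h4.symm

section Galois

variable (t : FF ι M)

/-- the base field `K(t)` -/
abbrev base : IntermediateField K (FF ι M) := K⟮t⟯

variable {ι M}
variable {S : Set (modFun ι M)} (hfin : S.Finite) (hS : ∀ f ∈ S, ∀ γ, pull ι M γ f ∈ S)

/-- the polynomial with roots `S` -/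
def polyS : (modFun ι M)[X] := ∏ g ∈ hfin.toFinset, (X - C g)

omit [NeZero M] in
include hS in
theorem pull_coeff_polyS (γ : SL(2, ℤ)) (n : ℕ) :
    pull ι M γ ((polyS hfin).coeff n) = (polyS hfin).coeff n := by
  classical
  have h1 : (polyS hfin).map (pull ι M γ) = polyS hfin := by
    rw [polyS, Polynomial.map_prod]
    have h2 : hfin.toFinset.image (pull ι M γ) = hfin.toFinset := by
      apply Finset.eq_of_subset_of_card_le
      · intro x hx
        rw [Finset.mem_image] at hx
        obtain ⟨y, hy, rfl⟩ := hx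
        rw [Set.Finite.mem_toFinset] at hy ⊢
        exact hS y hy γ
      · rw [Finset.card_image_of_injective _ (pull_injective ι M γ)]
    conv_rhs => rw [← h2]
    rw [Finset.prod_image fun x _ y _ h => pull_injective ι M γ h]
    refine Finset.prod_congr rfl fun x _ => ?_
    rw [Polynomial.map_sub, map_X, map_C]
  conv_rhs => rw [← h1]
  rw [coeff_map]

include hS in
/-- the polynomial descends to `K(t)` -/
theorem exists_descend {ζ : Kˣ} (hζ : ι ζ = Complex.exp (2 * Real.pi * Complex.I / M))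
    (hJ : algebraMap (modFun ι M) (FF ι M) (JM ι M) ∈ base ι M t) :
    ∃ Q : (base ι M t)[X], Q.map (algebraMap (base ι M t) (FF ι M)) =
      (polyS hfin).map (algebraMap (modFun ι M) (FF ι M)) := by
  have h1 : (polyS hfin).map (algebraMap (modFun ι M) (FF ι M)) ∈
      Polynomial.lifts (algebraMap (base ι M t) (FF ι M)) := by
    rw [Polynomial.lifts_iff_coeff_lifts]
    intro n
    rw [coeff_map]
    obtain ⟨p, hp⟩ := exists_aeval_JM ι M hζ (f := (polyS hfin).coeff n)
      fun γ => pull_coeff_polyS hfin hS γ n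
    have h2 : algebraMap (modFun ι M) (FF ι M) ((polyS hfin).coeff n) ∈ base ι M t := by
      have h3 := Polynomial.aeval_algebraMap_apply (FF ι M) (⟨_, hJ⟩ : base ι M t) p
      rw [hp, ← Polynomial.aeval_algebraMap_apply]
      change aeval (algebraMap (base ι M t) (FF ι M) ⟨_, hJ⟩) p ∈ _
      rw [h3]
      exact (aeval (⟨_, hJ⟩ : base ι M t) p).2
    exact ⟨⟨_, h2⟩, rfl⟩
  exact (Polynomial.mem_lifts _).mp h1

/-- the field generated by `S` over `K(t)` -/
abbrev ES (ι : K →+* ℂ) (M : ℕ) [NeZero M] (t : FF ι M) (S : Set (modFun ι M)) :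
    IntermediateField (base ι M t) (FF ι M) :=
  IntermediateField.adjoin (base ι M t) (algebraMap (modFun ι M) (FF ι M) '' S)

include hfin hS in
theorem exists_splitting {ζ : Kˣ} (hζ : ι ζ = Complex.exp (2 * Real.pi * Complex.I / M))
    (hJ : algebraMap (modFun ι M) (FF ι M) (JM ι M) ∈ base ι M t) :
    ∃ Q : (base ι M t)[X], Q.IsSplittingField (base ι M t) (ES ι M t S) ∧
      Q.map (algebraMap (base ι M t) (FF ι M)) =
        ∏ g ∈ hfin.toFinset, (X - C (algebraMap (modFun ι M) (FF ι M) g)) := by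
  obtain ⟨Q, hQ⟩ := exists_descend t hfin hS hζ hJ
  have hQ' : Q.map (algebraMap (base ι M t) (FF ι M)) =
        ∏ g ∈ hfin.toFinset, (X - C (algebraMap (modFun ι M) (FF ι M) g)) := by
    rw [hQ, polyS, Polynomial.map_prod]
    refine Finset.prod_congr rfl fun x _ => ?_
    rw [Polynomial.map_sub, map_X, map_C]
  have hQ0 : Q.map (algebraMap (base ι M t) (FF ι M)) ≠ 0 := by
    rw [hQ']
    exact Finset.prod_ne_zero_iff.mpr fun x _ => X_sub_C_ne_zero _
  have hroot : Q.rootSet (FF ι M) = algebraMap (modFun ι M) (FF ι M) '' S := by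
    ext x
    rw [mem_rootSet', and_iff_right hQ0, ← eval_map_algebraMap, hQ', eval_prod,
      Finset.prod_eq_zero_iff]
    constructor
    · rintro ⟨g, hg, hg'⟩
      rw [eval_sub, eval_X, eval_C, sub_eq_zero] at hg'
      exact ⟨g, hfin.mem_toFinset.mp hg, hg'.symm⟩
    · rintro ⟨g, hg, rfl⟩
      exact ⟨g, hfin.mem_toFinset.mpr hg, by rw [eval_sub, eval_X, eval_C, sub_self]⟩
  refine ⟨Q, ?_, hQ'⟩
  have h1 := IntermediateField.adjoin_rootSet_isSplittingField (K := base ι M t)
    (L := FF ι M) (p := Q) (by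
      rw [hQ']
      exact Splits.prod fun x _ => Splits.X_sub_C _)
  rw [hroot] at h1
  exact h1

end Galois

end Fermat.Agent.KL
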