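import Mathlib
import Fermat.Agent.ESCore.Defs
import Fermat.Prelude.Def_FLTPrelim_Ramification

set_option autoImplicit false

/-!
# Valuation subrings of `Qb` above a prime: rank one, residue field
-/

open Polynomial

noncomputable section

namespace Fermat.Agent.KL

open Fermat.Agent.ESCore

variable {l : ℕ} (hl : l.Prime) (A : ValuationSubring Qb) (hA : A.LiesOverPrime l)

include hA in
theorem mem_max : ∃ h : ((l : ℕ) : Qb) ∈ A, (⟨_, h⟩ : A) ∈ IsLocalRing.maximalIdeal A := by
  obtain ⟨h3, h4⟩ := (ValuationSubring.mem_nonunits_iff_exists_mem_maximalIdeal (A := A)).1 hA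
  exact ⟨h3, h4⟩

include hA in
theorem natCast_mem_max : ((l : ℕ) : A) ∈ IsLocalRing.maximalIdeal A := by
  obtain ⟨h3, h4⟩ := mem_max A hA
  have h5 : (⟨((l : ℕ) : Qb), h3⟩ : A) = ((l : ℕ) : A) := Subtype.ext (by simp)
  rwa [h5] at h4

include hl hA in
theorem isUnit_natCast {n : ℕ} (hn : ¬ l ∣ n) : IsUnit (n : A) := by
  by_contra h
  have h1 : (n : A) ∈ IsLocalRing.maximalIdeal A := (IsLocalRing.mem_maximalIdeal _).mpr h
  have h2 := natCast_mem_max A hA
  have hcop : Nat.Coprime l n := (Nat.Prime.coprime_iff_not_dvd hl).mpr hn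
  have h3 : (1 : A) = ((l : ℕ) : A) * ((Nat.gcdA l n : ℤ) : A) +
      (n : A) * ((Nat.gcdB l n : ℤ) : A) := by
    have := Nat.gcd_eq_gcd_ab l n
    rw [Nat.Coprime.gcd_eq_one hcop] at this
    have h4 := congrArg (Int.cast : ℤ → A) this
    push_cast at h4
    exact h4
  have h4 : (1 : A) ∈ IsLocalRing.maximalIdeal A := by
    rw [h3]
    exact Ideal.add_mem _ (Ideal.mul_mem_right _ _ h2) (Ideal.mul_mem_right _ _ h1)
  exact (Ideal.ne_top_iff_one _).mp (IsLocalRing.maximalIdeal.isMaximal A).ne_top h4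

theorem valuation_eq_one_of_isUnit {a : A} (ha : IsUnit a) : A.valuation (a : Qb) = 1 :=
  (A.valuation_eq_one_iff a).mp ha

include hl hA in
theorem valuation_intCast {c : ℤ} (hc : c ≠ 0) :
    ∃ k : ℕ, A.valuation ((c : ℤ) : Qb) = A.valuation ((l : ℕ) : Qb) ^ k := by
  obtain ⟨k, u, hu, hcu⟩ := Nat.exists_eq_pow_mul_and_not_dvd (n := c.natAbs)
    (Int.natAbs_ne_zero.mpr hc) l hl.ne_one
  refine ⟨k, ?_⟩
  have h1 : A.valuation ((c.natAbs : ℕ) : Qb) = A.valuation ((c : ℤ) : Qb) := by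
    rcases Int.natAbs_eq c with h | h
    · conv_rhs => rw [h]
      rw [Int.cast_natCast]
    · conv_rhs => rw [h]
      rw [Int.cast_neg, Int.cast_natCast, Valuation.map_neg]
  have h2 : A.valuation ((u : ℕ) : Qb) = 1 := by
    have := valuation_eq_one_of_isUnit A (isUnit_natCast hl A hA hu)
    simpa using this
  rw [← h1, hcu]
  push_cast
  rw [map_mul, map_pow, h2, mul_one]

include hl hA in
theorem exists_valuation_pow {x : Qb} (hx : x ≠ 0) :
    ∃ (d : ℕ) (s : ℤ), 0 < d ∧ A.valuation x ^ d = A.valuation ((l : ℕ) : Qb) ^ s := by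
  classical
  have hxa : IsAlgebraic ℤ x := by
    haveI := isAlgebraic_Qb
    exact (IsFractionRing.isAlgebraic_iff ℤ ℚ Qb).mpr (Algebra.IsAlgebraic.isAlgebraic x)
  obtain ⟨P, hP0, hPx⟩ := hxa
  have hvx : A.valuation x ≠ 0 := (Valuation.ne_zero_iff _).mpr hx
  have hl0 : ((l : ℕ) : Qb) ≠ 0 := by exact_mod_cast hl.ne_zero
  have hvl : A.valuation ((l : ℕ) : Qb) ≠ 0 := (Valuation.ne_zero_iff _).mpr hl0
  obtain ⟨i, hi, j, hj, hij, hval⟩ : ∃ i ∈ P.support, ∃ j ∈ P.support, i < j ∧
      A.valuation (((P.coeff i : ℤ) : Qb) * x ^ i) =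
      A.valuation (((P.coeff j : ℤ) : Qb) * x ^ j) := by
    by_contra hcon
    push Not at hcon
    have hdist : ∀ i ∈ P.support, ∀ j ∈ P.support, i ≠ j →
        A.valuation (((P.coeff i : ℤ) : Qb) * x ^ i) ≠
        A.valuation (((P.coeff j : ℤ) : Qb) * x ^ j) := by
      intro i hi j hj hij
      rcases lt_or_gt_of_ne hij with h | h
      · exact hcon i hi j hj h
      · exact (hcon j hj i hi h).symm
    obtain ⟨j, hj, hmax⟩ := P.support.exists_max_image
      (fun i => A.valuation (((P.coeff i : ℤ) : Qb) * x ^ i)) (support_nonempty.mpr hP0)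
    have h1 : A.valuation (∑ i ∈ P.support, ((P.coeff i : ℤ) : Qb) * x ^ i) =
        A.valuation (((P.coeff j : ℤ) : Qb) * x ^ j) := by
      refine Valuation.map_sum_eq_of_lt _ hj fun i hi => ?_
      rw [Finset.mem_sdiff, Finset.mem_singleton] at hi
      exact lt_of_le_of_ne (hmax i hi.1) (hdist i hi.1 j hj hi.2)
    have h2 : ∑ i ∈ P.support, ((P.coeff i : ℤ) : Qb) * x ^ i = 0 := by
      rw [← hPx, aeval_def, eval₂_eq_sum, Polynomial.sum]
      rfl
    rw [h2, map_zero] at h1
    have h3 := (Valuation.zero_iff _).mp h1.symm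
    rw [mul_eq_zero] at h3
    rcases h3 with h3 | h3
    · exact (mem_support_iff.mp hj) (by exact_mod_cast h3)
    · exact pow_ne_zero _ hx h3
  obtain ⟨a, ha⟩ := valuation_intCast hl A hA (mem_support_iff.mp hi)
  obtain ⟨b, hb⟩ := valuation_intCast hl A hA (mem_support_iff.mp hj)
  rw [map_mul, map_mul, ha, hb, map_pow, map_pow] at hval
  obtain ⟨d, rfl⟩ : ∃ d, j = i + d := ⟨j - i, by omega⟩
  refine ⟨d, (a : ℤ) - b, by omega, ?_⟩
  have h4 : A.valuation x ^ i ≠ 0 := pow_ne_zero _ hvx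
  rw [zpow_sub₀ hvl, zpow_natCast, zpow_natCast, eq_div_iff (pow_ne_zero _ hvl)]
  apply mul_right_cancel₀ h4
  rw [hval, pow_add]
  ac_rfl

include hl hA in
/-- rank one -/
theorem rank_one (a : A) (ha : a ≠ 0) (π : A) (hπ : π ∈ IsLocalRing.maximalIdeal A) :
    ∃ n : ℕ, a ∣ π ^ n := by
  have hl0 : ((l : ℕ) : Qb) ≠ 0 := by exact_mod_cast hl.ne_zero
  have hvl : A.valuation ((l : ℕ) : Qb) ≠ 0 := (Valuation.ne_zero_iff _).mpr hl0
  have hvl1 : A.valuation ((l : ℕ) : Qb) < 1 := by
    have := (A.valuation_lt_one_iff _).mp (natCast_mem_max A hA)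
    simpa using this
  have hdvd : ∀ x y : A, A.valuation (y : Qb) ≤ A.valuation (x : Qb) → x ∣ y := by
    intro x y h
    rcases ValuationRing.dvd_total x y with h1 | ⟨c, hc⟩
    · exact h1
    · by_cases hx : x = 0
      · rw [hx] at h
        have h2 : A.valuation ((0 : A) : Qb) = 0 := by simp
        rw [h2, le_zero_iff, Valuation.zero_iff] at h
        have : y = 0 := Subtype.ext h
        rw [this]; exact dvd_zero _
      · -- `x = y c`, so `c` is a unit
        have hy : y ≠ 0 := by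
          rintro rfl
          rw [zero_mul] at hc
          exact hx hc
        have hvy : A.valuation (y : Qb) ≠ 0 := by
          rw [Valuation.ne_zero_iff]
          exact fun h => hy (Subtype.ext h)
        have h2 : A.valuation (c : Qb) = 1 := by
          apply le_antisymm (A.valuation_le_one c)
          have h3 : A.valuation (x : Qb) = A.valuation (y : Qb) * A.valuation (c : Qb) := by
            rw [hc]; push_cast; rw [map_mul]
          rw [h3] at h
          exact le_of_mul_le_mul_left (by rw [mul_one]; exact h) (zero_lt_iff.mpr hvy)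
        have h4 : IsUnit c := (A.valuation_eq_one_iff c).mpr h2
        obtain ⟨u, rfl⟩ := h4
        exact ⟨(↑u⁻¹ : A), by rw [hc, mul_assoc, Units.mul_inv, mul_one]⟩
  -- `a ∣ l ^ r`
  obtain ⟨d, s, hd, hds⟩ := exists_valuation_pow hl A hA (x := (a : Qb))
    (fun h => ha (Subtype.ext h))
  have hva : A.valuation (a : Qb) ≤ 1 := A.valuation_le_one a
  have h1 : A.valuation ((l : ℕ) : Qb) ^ s.toNat ≤ A.valuation (a : Qb) := by
    rcases le_or_gt 0 s with hs | hs
    · obtain ⟨r, rfl⟩ := Int.eq_ofNat_of_zero_le hs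
      rw [Int.toNat_natCast]
      rw [zpow_natCast] at hds
      rw [← hds]
      exact pow_le_of_le_one zero_le hva hd.ne'
    · exfalso
      have h2 : A.valuation (a : Qb) ^ d ≤ 1 := pow_le_one₀ zero_le hva
      rw [hds] at h2
      have h3 : 1 < A.valuation ((l : ℕ) : Qb) ^ s :=
        one_lt_zpow_of_neg₀ (zero_lt_iff.mpr hvl) hvl1 hs
      exact absurd h2 (not_le.mpr h3)
  have h2 : a ∣ ((l : ℕ) : A) ^ s.toNat := by
    apply hdvd
    push_cast
    rw [map_pow]
    exact h1
  -- `l ∣ π ^ n`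
  obtain ⟨n, hn⟩ : ∃ n : ℕ, ((l : ℕ) : A) ∣ π ^ n := by
    by_cases hπ0 : π = 0
    · exact ⟨1, by rw [hπ0, pow_one]; exact dvd_zero _⟩
    obtain ⟨d, s, hd, hds⟩ := exists_valuation_pow hl A hA (x := (π : Qb))
      (fun h => hπ0 (Subtype.ext h))
    have hvπ : A.valuation (π : Qb) < 1 := (A.valuation_lt_one_iff _).mp hπ
    refine ⟨d, hdvd _ _ ?_⟩
    push_cast
    rw [map_pow, hds]
    have h3 : A.valuation (π : Qb) ^ d < 1 := pow_lt_one₀ zero_le hvπ hd.ne'
    rw [hds] at h3
    have hs : 0 < s := by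
      by_contra hs
      push Not at hs
      have h4 : 1 ≤ A.valuation ((l : ℕ) : Qb) ^ s :=
        one_le_zpow_of_nonpos₀ (zero_lt_iff.mpr hvl) hvl1.le hs
      exact absurd h3 (not_lt.mpr h4)
    calc A.valuation ((l : ℕ) : Qb) ^ s ≤ A.valuation ((l : ℕ) : Qb) ^ (1 : ℤ) :=
          zpow_le_zpow_right_of_le_one₀ (zero_lt_iff.mpr hvl) hvl1.le (by omega)
      _ = _ := zpow_one _
  exact ⟨n * s.toNat, h2.trans (by rw [pow_mul]; exact pow_dvd_pow_of_dvd hn _)⟩

/-- the residue field is algebraically closed -/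
theorem isAlgClosed_residue : IsAlgClosed (IsLocalRing.ResidueField A) := by
  refine IsAlgClosed.of_exists_root _ fun p hp hirr => ?_
  obtain ⟨q, hq1, hq2, hq3⟩ := lifts_and_natDegree_eq_and_monic
    (f := IsLocalRing.residue A) (p := p) ((Polynomial.mem_lifts p).mpr
      (Polynomial.map_surjective _ IsLocalRing.residue_surjective p)) hp
  have hdeg : (q.map (algebraMap A Qb)).degree ≠ 0 := by
    rw [hq3.degree_map]
    have h1 : 0 < p.natDegree := hirr.natDegree_pos
    rw [← hq2] at h1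
    exact (natDegree_pos_iff_degree_pos.mp h1).ne'
  obtain ⟨x, hx⟩ := IsAlgClosed.exists_root _ hdeg
  have hint : IsIntegral A x := by
    refine ⟨q, hq3, ?_⟩
    rwa [← eval_map]
  obtain ⟨a, ha⟩ := IsIntegrallyClosed.isIntegral_iff.mp hint
  refine ⟨IsLocalRing.residue A a, ?_⟩
  rw [← hq1, eval_map, eval₂_at_apply]
  have h2 : q.eval a = 0 := by
    apply Subtype.val_injective
    have h3 : (q.map (algebraMap A Qb)).eval (algebraMap A Qb a) = 0 := by
      rw [ha]; exact hx
    rw [eval_map, eval₂_at_apply] at h3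
    exact h3
  rw [h2, map_zero]

end Fermat.Agent.KL
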