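import Mathlib
import Fermat.Agent.KL.Field
import Fermat.Agent.KL.Val
import Fermat.Agent.ModFun.UExp
import Fermat.Agent.ESCore.HauptSurj
import Fermat.Agent.LP.KumGal

set_option autoImplicit false

/-!
# The base functions `t2`, `t3` at all cusps
-/

open Matrix.SpecialLinearGroup CongruenceSubgroup ModularGroup
open UpperHalfPlane hiding I J
open Polynomial Fermat.Agent.ModFun Fermat.Agent.ESCore Fermat.Agent.Eis16
open scoped MatrixGroups Manifold IntermediateField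

noncomputable section

namespace Fermat.Agent.KL

section Haupt

variable {R : Type*} [CommRing R] {φ : R →+* ℂ} {p : ℕ} [NeZero p] {κ : ℤ} (H : HauptFn p κ)

theorem lead_TS (hp1 : p ≠ 1) : LeadU (HahnSeries.ofPowerSeries ℤ ℤ (TS p κ)) 1 := by
  rw [leadU_iff]
  refine ⟨TW p κ, IsUnit.of_mul_eq_one _ (TW_mul_TWi p κ hp1), ?_⟩
  rw [TS_eq, map_mul, HahnSeries.ofPowerSeries_X]

theorem lead_TWi (hp1 : p ≠ 1) : LeadU (HahnSeries.single (-1) 1 *
    HahnSeries.ofPowerSeries ℤ ℤ (TWi p κ) : LaurentSeries ℤ) (-1) := by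
  rw [leadU_iff]
  refine ⟨TWi p κ, IsUnit.of_mul_eq_one (TW p κ) ?_, rfl⟩
  rw [mul_comm]
  exact TW_mul_TWi p κ hp1

theorem qN_T_zpow (M : ℕ) [NeZero M] {ζ : Rˣ}
    (hζ : φ ζ = Complex.exp (2 * Real.pi * Complex.I / M)) (j : ℤ) (τ : ℍ) :
    qN M ((T ^ j : SL(2, ℤ)) • τ) = φ ((ζ ^ j : Rˣ) : R) * qN M τ := by
  have hM : (M : ℂ) ≠ 0 := by exact_mod_cast NeZero.ne M
  rw [map_units_zpow, hζ, modular_T_zpow_smul, qN_apply, qN_apply, Function.Periodic.qParam,
    Function.Periodic.qParam, ← Complex.exp_int_mul, ← Complex.exp_add]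
  congr 1
  push_cast
  field_simp
  simp

theorem exists_exp_haupt (hp : p.Prime) {M : ℕ} [NeZero M] (hpM : p ∣ M) {ζ : Rˣ}
    (hζ : φ ζ = Complex.exp (2 * Real.pi * Complex.I / M))
    (hu : IsUnit ((κ : R) ^ 2 * (p : R) ^ 4)) (γ : SL(2, ℤ)) :
    ∃ (T : LaurentSeries R) (n : ℤ), HasExp φ (qN M) (fun τ => H.t (γ • τ)) T ∧ LeadU T n ∧
      (γ ∈ Gamma0 p → n = M) ∧ (γ ∉ Gamma0 p → n = -((M / p : ℕ) : ℤ)) := by
  have hcast : φ.comp (Int.castRingHom R) = Int.castRingHom ℂ := RingHom.ext_int _ _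
  by_cases hγ : γ ∈ Gamma0 p
  · refine ⟨ModularCurve.qExpand R M (ModularCurve.coeffMap (Int.castRingHom R)
      (HahnSeries.ofPowerSeries ℤ ℤ (TS p κ))), M * 1, ?_,
      ((lead_TS H.hp1).coeffMap _).qExpand M, fun _ => by rw [mul_one], fun h => absurd hγ h⟩
    refine HasExp.congr ((H.hasExp.coeffMap (Int.castRingHom R) hcast).level M) fun τ => ?_
    rw [H.smul γ hγ]
  · obtain ⟨i, hi⟩ := rep_bij_aux hp γ⁻¹
    have hδ : γ * (rep p i)⁻¹ ∈ Gamma0 p := by
      have := inv_mem hi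
      rwa [mul_inv_rev, inv_inv] at this
    cases i with
    | none =>
      exfalso
      apply hγ
      simpa [rep] using hδ
    | some j =>
      obtain ⟨u, hu⟩ := hu
      obtain ⟨r, hr⟩ := hpM
      haveI : NeZero r := ⟨by rintro rfl; exact NeZero.ne M (by rw [hr, mul_zero])⟩
      have hMp : M / p = r := by
        rw [hr, Nat.mul_div_cancel_left _ (Nat.pos_of_ne_zero (NeZero.ne p))]
      have h1 := H.hasExp_S.coeffMap (Int.castRingHom R) hcast
      -- change of level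
      have h2 := h1.qExpand (s' := qN M) r (fun τ => τ) fun τ => by
        have hp0 : (p : ℂ) ≠ 0 := by exact_mod_cast NeZero.ne p
        have hr0 : (r : ℂ) ≠ 0 := by exact_mod_cast NeZero.ne r
        rw [qN_apply, qN_apply, Function.Periodic.qParam, Function.Periodic.qParam,
          ← Complex.exp_nat_mul]
        congr 1
        rw [hr]
        push_cast
        field_simp
      -- twist
      have h3 := h2.twist (s' := qN M) (ζ ^ ((j : ℕ) : ℤ)) (fun τ => (T ^ ((j : ℕ) : ℤ) : SL(2, ℤ)) • τ)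
        fun τ => qN_T_zpow M hζ _ τ
      have h4 := h3.smul ((u⁻¹ : Rˣ) : R)
      refine ⟨HahnSeries.C ((u⁻¹ : Rˣ) : R) * Fermat.Agent.ModFun.twist (ζ ^ ((j : ℕ) : ℤ))
        (ModularCurve.qExpand R r (ModularCurve.coeffMap (Int.castRingHom R)
          (HahnSeries.single (-1) 1 * HahnSeries.ofPowerSeries ℤ ℤ (TWi p κ)))),
        0 + (r : ℤ) * (-1), ?_, ?_, fun h => absurd h hγ, fun _ => ?_⟩
      rotate_left
      · exact LeadU.mul (LeadU.C (u⁻¹).isUnit)
          ((((lead_TWi (κ := κ) H.hp1).coeffMap (Int.castRingHom R)).qExpand r).twist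
            (ζ ^ ((j : ℕ) : ℤ)))
      · rw [hMp]; ring
      · refine h4.congr fun τ => ?_
        have h5 : γ • τ = (γ * (rep p (some j))⁻¹) • (S • ((T ^ ((j : ℕ) : ℤ) : SL(2, ℤ)) • τ)) := by
          have h7 : (γ * (rep p (some j))⁻¹) * (S * (T ^ ((j : ℕ) : ℤ) : SL(2, ℤ))) = γ := by
            have h8 : rep p (some j) = S * T ^ ((j : ℕ) : ℤ) := rfl
            rw [h8, inv_mul_cancel_right]
          rw [← mul_smul S, ← mul_smul (γ * (rep p (some j))⁻¹), h7]
        rw [h5, H.smul _ hδ, ← mul_assoc]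
        have h6 : φ ((u⁻¹ : Rˣ) : R) * ((κ : ℂ) ^ 2 * (p : ℂ) ^ 4) = 1 := by
          have h7 : ((κ : ℂ) ^ 2 * (p : ℂ) ^ 4) = φ (u : R) := by
            rw [hu, map_mul, map_pow, map_pow, map_intCast, map_natCast]
          rw [h7, ← map_mul, Units.inv_mul, map_one]
        rw [h6, one_mul]

end Haupt

/-- the roots of unity in `Qb` -/
theorem exists_zeta (M : ℕ) [NeZero M] : ∃ ζ : Qb, ζ ^ M = 1 ∧
    ιC ζ = Complex.exp (2 * Real.pi * Complex.I / M) := by
  have hM : (M : ℂ) ≠ 0 := by exact_mod_cast NeZero.ne M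
  obtain ⟨ζ, h1, h2⟩ := LP.exists_root_of_pow_eq ιC (Nat.pos_of_ne_zero (NeZero.ne M))
    (x := Complex.exp (2 * Real.pi * Complex.I / M)) (y := 1) one_ne_zero (by
      rw [one_pow, ← Complex.exp_nat_mul, mul_div_cancel₀ _ hM]
      exact Complex.exp_two_pi_mul_I)
  exact ⟨ζ, h1, by rw [h2, mul_one]⟩

/-- root of unity as a unit of a valuation ring -/
theorem exists_zeta_unit (A : ValuationSubring Qb) {M : ℕ} (hM : 0 < M) {ζ : Qb}
    (hζ : ζ ^ M = 1) : ∃ u : Aˣ, ((u : A) : Qb) = ζ := by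
  have hint : IsIntegral A ζ := IsIntegral.of_pow hM (by rw [hζ]; exact isIntegral_one)
  obtain ⟨a, ha⟩ := IsIntegrallyClosed.isIntegral_iff.mp hint
  have haM : a ^ M = 1 := by
    apply Subtype.val_injective
    push_cast
    have : ((a : A) : Qb) = ζ := ha
    rw [this, hζ]
  have hau : IsUnit a := by
    rw [← isUnit_pow_iff hM.ne', haM]
    exact isUnit_one
  obtain ⟨u, rfl⟩ := hau
  exact ⟨u, ha⟩

end Fermat.Agent.KL
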