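import Mathlib
import Fermat.Agent.KL.Val
import Fermat.Agent.LP.KumGal
import Fermat.Agent.ESCore.AlgLaurent

set_option autoImplicit false

/-!
# The comparison theorem, concrete form
-/

open Polynomial Fermat.Agent.LP Fermat.Agent.ESCore

noncomputable section

namespace Fermat.Agent.KL

theorem mapLS_eq_coeffMap {R S : Type*} [CommRing R] [CommRing S] (f : R →+* S)
    (x : LaurentSeries R) : mapLS f x = ModularCurve.coeffMap f x := by
  ext n
  rfl

variable (A : ValuationSubring Qb) {F E : Type*} [Field F] [Field E] [Algebra F E]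

/-- an expansion at a cusp, without instances -/
structure CuspEmb' (β : Qb[X] →+* F) (θ : E →+* LaurentSeries Qb) (T : LaurentSeries A) (n : ℤ) :
    Prop where
  unit : IsUnit (n : A)
  low : ∀ j < n, T.coeff j = 0
  lead : IsUnit (T.coeff n)
  base : ∀ p : Qb[X], θ (algebraMap F E (β p)) = evT (mapLS (algebraMap A Qb) T) p

/-- concrete form of the comparison theorem -/
theorem comparison_concrete [FiniteDimensional F E] [IsGalois F E] {l : ℕ} (hl : l.Prime)
    (hA : A.LiesOverPrime l) (β : Qb[X] →+* F) (hβ : Function.Injective β)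
    (hβs : ∀ x : F, ∃ r s : Qb[X], x = β r / β s)
    {c₁ : A} (hc₁ : IsUnit c₁)
    (hreg : ∀ c : Qb, c ≠ 0 → c ≠ c₁ → ∃ θ : E →+* LaurentSeries Qb,
      ∀ p, θ (algebraMap F E (β p)) = evT (HahnSeries.C c + HahnSeries.single 1 1) p)
    (hell : ∃ e : ℕ, 0 < e ∧ ∃ θ : E →+* LaurentSeries Qb,
      ∀ p, θ (algebraMap F E (β p)) = evT (HahnSeries.C (c₁ : Qb) + HahnSeries.single (e : ℤ) 1) p)
    {θi θz : E →+* LaurentSeries Qb} {Ti Tz : LaurentSeries A} {ni nz : ℕ} (hni : 0 < ni)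
    (hnz : 0 < nz) (hi : CuspEmb' A β θi Ti (ni : ℤ)) (hz : CuspEmb' A β θz Tz (-(nz : ℤ)))
    {m : ℕ} (hlm : ¬ l ∣ m) {Y : Set E}
    (hgen : IntermediateField.adjoin F Y = ⊤) (hstab : ∀ g : E ≃ₐ[F] E, ∀ y ∈ Y, g y ∈ Y)
    (hBD : ∀ y ∈ Y, ∃ f g : LaurentSeries A, g ≠ 0 ∧
      mapLS (algebraMap A Qb) g * θi (y ^ m) = mapLS (algebraMap A Qb) f)
    {θ₁ θ₂ : E →+* LaurentSeries Qb} {T₁ T₂ : LaurentSeries A} {n₁ n₂ : ℤ}
    (h₁ : CuspEmb' A β θ₁ T₁ n₁) (h₂ : CuspEmb' A β θ₂ T₂ n₂) {y : E} (hy : y ≠ 0)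
    {P₁ P₂ : LaurentSeries A}
    (hP : mapLS (IsLocalRing.residue A) P₁ = mapLS (IsLocalRing.residue A) P₂)
    (hP0 : mapLS (IsLocalRing.residue A) P₁ ≠ 0)
    (hyP : θ₁ y ^ m * mapLS (algebraMap A Qb) P₂ = mapLS (algebraMap A Qb) P₁)
    {χ : A} (hχ : χ ^ m = 1) (hyχ : θ₂ y = HahnSeries.C (algebraMap A Qb χ) * θ₁ y) : χ = 1 := by
  letI : Algebra Qb[X] F := β.toAlgebra
  letI : Algebra A[X] F := (β.comp (mapRingHom (algebraMap A Qb))).toAlgebra
  letI : Algebra Qb[X] E := ((algebraMap F E).comp β).toAlgebra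
  letI : Algebra A[X] E := ((algebraMap F E).comp (β.comp (mapRingHom (algebraMap A Qb)))).toAlgebra
  haveI : IsScalarTower A[X] F E := IsScalarTower.of_algebraMap_eq' rfl
  haveI : IsScalarTower Qb[X] F E := IsScalarTower.of_algebraMap_eq' rfl
  haveI : FaithfulSMul Qb[X] F := (faithfulSMul_iff_algebraMap_injective _ _).mpr hβ
  haveI : IsFractionRing Qb[X] F := IsFractionRing.of_field Qb[X] F hβs
  haveI : IsAlgClosed (IsLocalRing.ResidueField A) := isAlgClosed_residue A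
  have hnf : ∃ ϖ ∈ IsLocalRing.maximalIdeal A, ϖ ≠ 0 := by
    refine ⟨((l : ℕ) : A), natCast_mem_max A hA, ?_⟩
    intro h
    have h1 : ((l : ℕ) : Qb) = 0 := by
      have := congrArg (algebraMap A Qb) h
      simpa using this
    exact hl.ne_zero (by exact_mod_cast h1)
  have hcusp : ∀ {θ : E →+* LaurentSeries Qb} {T : LaurentSeries A} {n : ℤ},
      CuspEmb' A β θ T n → CuspEmb θ T n := fun h => ⟨h.unit, h.low, h.lead, h.base⟩
  refine comparison_kummer (A := A) (k := Qb) (F := F) (E := E) (l := l)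
    (fun a ha π hπ => rank_one hl A hA a ha π hπ) hnf (fun p => rfl) hl
    (fun n hn => isUnit_natCast hl A hA hn) hc₁ ?_ ?_ hni hnz (hcusp hi) (hcusp hz) hlm hgen hstab
    hBD (hcusp h₁) (hcusp h₂) hy hP hP0 hyP hχ hyχ
  · intro c hc hc'
    obtain ⟨θ, hθ⟩ := hreg c hc hc'
    exact ⟨θ, one_ne_zero, hθ⟩
  · obtain ⟨e, he, θ, hθ⟩ := hell
    exact ⟨e, he, θ, by exact_mod_cast he.ne', hθ⟩

theorem exists_lift_of_range {R : Type*} [CommRing R] (θ : R →+* LaurentSeries ℂ)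
    (key : ∀ x, ∃ y : LaurentSeries Qb, ModularCurve.coeffMap ιC y = θ x) :
    ∃ θ' : R →+* LaurentSeries Qb, ∀ x, ModularCurve.coeffMap ιC (θ' x) = θ x := by
  have hinj : Function.Injective (ModularCurve.coeffMap ιC) := RingHom.injective _
  choose g hg using key
  refine ⟨⟨⟨⟨g, ?_⟩, ?_⟩, ?_, ?_⟩, hg⟩
  · apply hinj
    rw [hg, map_one, map_one]
  · intro x y
    apply hinj
    change ModularCurve.coeffMap ιC (g (x * y)) = ModularCurve.coeffMap ιC (g x * g y)
    rw [hg, map_mul, map_mul, hg, hg]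
  · apply hinj
    change ModularCurve.coeffMap ιC (g 0) = _
    rw [hg, map_zero, map_zero]
  · intro x y
    apply hinj
    change ModularCurve.coeffMap ιC (g (x + y)) = ModularCurve.coeffMap ιC (g x + g y)
    rw [hg, map_add, map_add, hg, hg]

/-- descending an embedding to algebraic coefficients -/
theorem exists_lift_place [Algebra.IsAlgebraic F E] (θF : F →+* LaurentSeries Qb)
    (θ : E →+* LaurentSeries ℂ)
    (h : ∀ x, ModularCurve.coeffMap ιC (θF x) = θ (algebraMap F E x)) :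
    ∃ θ' : E →+* LaurentSeries Qb, ∀ x, ModularCurve.coeffMap ιC (θ' x) = θ x := by
  apply exists_lift_of_range
  intro x
  obtain ⟨f, hf0, hf⟩ := Algebra.IsAlgebraic.isAlgebraic (R := F) x
  refine exists_coeffMap_of_root (f := f.map θF)
    ((Polynomial.map_ne_zero_iff θF.injective).mpr hf0) ?_
  rw [eval₂_map]
  have h1 : (ModularCurve.coeffMap ιC).comp θF = θ.comp (algebraMap F E) := by
    ext1 x
    exact h x
  rw [h1, ← Polynomial.hom_eval₂]
  have h2 : eval₂ (algebraMap F E) x f = 0 := hf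
  rw [h2, map_zero]

theorem exists_place [Algebra.IsAlgebraic F E] (β : Qb[X] →+* F)
    (hβs : ∀ x : F, ∃ r s : Qb[X], x = β r / β s) (θ : E →+* LaurentSeries ℂ)
    (T : LaurentSeries Qb)
    (hθ : ∀ p, θ (algebraMap F E (β p)) = ModularCurve.coeffMap ιC (evT T p)) :
    ∃ θ' : E →+* LaurentSeries Qb, ∀ p, θ' (algebraMap F E (β p)) = evT T p := by
  have hinj : Function.Injective (ModularCurve.coeffMap ιC) := RingHom.injective _
  obtain ⟨θF, hθF⟩ := exists_lift_of_range (θ.comp (algebraMap F E)) (by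
    intro x
    obtain ⟨r, s, rfl⟩ := hβs x
    refine ⟨evT T r / evT T s, ?_⟩
    rw [RingHom.comp_apply, map_div₀, map_div₀, map_div₀, hθ, hθ])
  obtain ⟨θ', hθ'⟩ := exists_lift_place θF θ hθF
  refine ⟨θ', fun p => hinj ?_⟩
  rw [hθ', hθ]

end Fermat.Agent.KL
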