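import Mathlib
import Fermat.Agent.KL.Base
import Fermat.Agent.KL.Comp
import Fermat.Agent.ModFun.GenDegree

set_option autoImplicit false

/-!
# Bounded denominators for modular functions
-/

open Matrix.SpecialLinearGroup CongruenceSubgroup ModularGroup
open UpperHalfPlane hiding I J
open Polynomial Fermat.Agent.ModFun Fermat.Agent.ESCore Fermat.Agent.LP
open scoped MatrixGroups Manifold IntermediateField

noncomputable section

namespace Fermat.Agent.KL

variable (A : ValuationSubring Qb)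

/-- the field of series with bounded denominators -/
abbrev qLS : Subfield (LaurentSeries Qb) := quotLS A Qb (IsFractionRing.injective A Qb)

theorem C_mem_qLS (a : Qb) : (HahnSeries.C a : LaurentSeries Qb) ∈ qLS A := by
  obtain ⟨b, c, hc, rfl⟩ := IsFractionRing.div_surjective (A := A) a
  have hc0 : c ≠ 0 := nonZeroDivisors.ne_zero hc
  refine ⟨HahnSeries.C b, HahnSeries.C c, ?_, ?_⟩
  · rwa [Ne, map_eq_zero_iff _ HahnSeries.C_injective]
  · rw [mapLS_C, mapLS_C, ← map_mul]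
    congr 1
    have : algebraMap A Qb c ≠ 0 := by
      rwa [Ne, map_eq_zero_iff _ (IsFractionRing.injective A Qb)]
    field_simp

theorem mapLS_mem_qLS (F : LaurentSeries A) : mapLS (algebraMap A Qb) F ∈ qLS A :=
  ⟨F, 1, one_ne_zero, by rw [map_one, one_mul]⟩

/-- bounded denominators for `G`-invariant functions -/
def BDProp (G : Subgroup SL(2, ℤ)) (M : ℕ) (A : ValuationSubring Qb) : Prop :=
  ∀ h : ℍ → ℂ, h ∈ modFun (RingHom.id ℂ) M → (∀ g ∈ G, ∀ τ, h (g • τ) = h τ) →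
    (∃ F : LaurentSeries Qb, HasExp ιC (qN 1) h F) →
    ∀ γ : SL(2, ℤ), ∃ X ∈ qLS A, HasExp ιC (qN M) (fun τ => h (γ • τ)) X

theorem BDProp.mono {G G' : Subgroup SL(2, ℤ)} {M : ℕ} {A : ValuationSubring Qb}
    (h : BDProp G M A) (hG : G ≤ G') : BDProp G' M A :=
  fun f hf hinv hF => h f hf (fun g hg => hinv g (hG hg)) hF

variable (M : ℕ) [NeZero M]

/-- the algebra of expansions of functions with bounded denominators at all cusps -/
def bdAlg : Subalgebra Qb (LaurentSeries Qb) where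
  carrier := {F | ∃ f : ℍ → ℂ, HasExp ιC (qN 1) f F ∧
    ∀ γ : SL(2, ℤ), ∃ X ∈ qLS A, HasExp ιC (qN M) (fun τ => f (γ • τ)) X}
  mul_mem' := by
    rintro F G ⟨f, hf, hf'⟩ ⟨g, hg, hg'⟩
    refine ⟨f * g, hf.mul hg, fun γ => ?_⟩
    obtain ⟨X, hX, hX'⟩ := hf' γ
    obtain ⟨Y, hY, hY'⟩ := hg' γ
    exact ⟨X * Y, mul_mem hX hY, hX'.mul hY'⟩
  add_mem' := by
    rintro F G ⟨f, hf, hf'⟩ ⟨g, hg, hg'⟩
    refine ⟨f + g, hf.add hg, fun γ => ?_⟩
    obtain ⟨X, hX, hX'⟩ := hf' γ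
    obtain ⟨Y, hY, hY'⟩ := hg' γ
    exact ⟨X + Y, add_mem hX hY, hX'.add hY'⟩
  algebraMap_mem' a := by
    refine ⟨fun _ => ιC a, ?_, fun γ => ⟨HahnSeries.C a, C_mem_qLS A a, HasExp.const a⟩⟩
    rw [ModularCurve.algebraMap_laurentSeries_eq_single]
    exact HasExp.const a

theorem jqModC_mem_bdAlg : ModularCurve.jqModC Qb ∈ bdAlg A M := by
  refine ⟨J, hasExp_J' ιC, fun γ => ?_⟩
  refine ⟨mapLS (algebraMap A Qb) (ModularCurve.qExpand A M (ModularCurve.jqModC A)),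
    mapLS_mem_qLS A _, ?_⟩
  rw [mapLS_eq_coeffMap]
  refine HasExp.coeffMap (φ := ιC.comp A.subtype) (algebraMap A Qb) rfl ?_
  exact ((hasExp_J' (ιC.comp A.subtype)).level M).congr fun τ => (J_smul γ τ).symm

theorem qExpand_mem_bdAlg :
    ModularCurve.qExpand Qb M (ModularCurve.jqModC Qb) ∈ bdAlg A M := by
  obtain ⟨ζ, hζ1, hζ2⟩ := exists_zeta M
  obtain ⟨u, hu⟩ := exists_zeta_unit A (Nat.pos_of_ne_zero (NeZero.ne M)) hζ1
  have h1 : Jd M ∈ modFun (ιC.comp A.subtype) M := Jd_mem_modFun dvd_rfl (ζ := u) (by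
    rw [← hζ2, ← hu]
    rfl)
  refine ⟨Jd M, hasExp_Jd ιC, fun γ => ?_⟩
  obtain ⟨F, hF⟩ := h1.2 γ
  refine ⟨mapLS (algebraMap A Qb) F, mapLS_mem_qLS A _, ?_⟩
  rw [mapLS_eq_coeffMap]
  exact hF.coeffMap (algebraMap A Qb) rfl

/-- **Bounded denominators for `Γ₀(M)`.** -/
theorem bdProp_Gamma0 : BDProp (Gamma0 M) M A := by
  rintro h hmem hinv ⟨H, hH⟩ γ
  have h1 : H ∈ holC ιC M := ⟨h, hmem, fun g hg τ => hinv g hg τ, hH⟩
  have h2 := mem_adjoin_of_mem_holC h1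
  rw [IntermediateField.mem_adjoin_iff_div] at h2
  obtain ⟨r, hr, s, hs, hrs⟩ := h2
  have hle : Algebra.adjoin Qb {ModularCurve.jqModC Qb,
      ModularCurve.qExpand Qb M (ModularCurve.jqModC Qb)} ≤ bdAlg A M := by
    rw [Algebra.adjoin_le_iff]
    rintro x (rfl | hx)
    · exact jqModC_mem_bdAlg A M
    · rw [Set.mem_singleton_iff] at hx
      rw [hx]
      exact qExpand_mem_bdAlg A M
  obtain ⟨fr, hfr, hfr'⟩ := hle hr
  obtain ⟨fs, hfs, hfs'⟩ := hle hs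
  by_cases hs0 : s = 0
  · rw [hs0, div_zero] at hrs
    rw [hrs] at hH
    have h3 : h = 0 := hH.fun_unique (qN_ne_zero 1) hasExp_zero
    refine ⟨0, zero_mem _, ?_⟩
    rw [h3]
    exact hasExp_zero
  have h3 : h * fs = fr := by
    have h4 := hH.mul hfs
    rw [hrs, div_mul_cancel₀ _ hs0] at h4
    exact h4.fun_unique (qN_ne_zero 1) hfr
  obtain ⟨Xr, hXr, hXr'⟩ := hfr' γ
  obtain ⟨Xs, hXs, hXs'⟩ := hfs' γ
  have hXs0 : Xs ≠ 0 := by
    rintro rfl
    have h4 : (fun τ => fs (γ • τ)) = 0 := hXs'.fun_unique (qN_ne_zero M) hasExp_zero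
    have h5 : fs = 0 := by
      ext τ
      have := congrFun h4 (γ⁻¹ • τ)
      simpa using this
    rw [h5] at hfs
    exact hs0 (hfs.unique ιC.injective (isParam_qN 1) hasExp_zero)
  obtain ⟨Y, hY⟩ := hmem.2 γ
  refine ⟨Xr / Xs, div_mem hXr hXs, ?_⟩
  rw [← hasExp_coeffMap_iff ιC (RingHom.id_comp ιC)]
  have h4 : Y * ModularCurve.coeffMap ιC Xs = ModularCurve.coeffMap ιC Xr := by
    have h5 := hY.mul (hXs'.coeffMap ιC (RingHom.id_comp ιC))
    have h6 := hXr'.coeffMap ιC (RingHom.id_comp ιC)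
    refine h5.unique (RingHom.id ℂ).injective (isParam_qN M) (h6.congr fun τ => ?_)
    rw [← h3]
    rfl
  have h5 : ModularCurve.coeffMap ιC Xs ≠ 0 := by
    rwa [Ne, map_eq_zero]
  rw [map_div₀, ← h4, mul_div_cancel_right₀ _ h5]
  exact hY

end Fermat.Agent.KL
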