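import Mathlib
import Fermat.Agent.KL.Base
import Fermat.Agent.KL.Comp

set_option autoImplicit false

/-!
# The comparison theorem for modular functions
-/

open Matrix.SpecialLinearGroup CongruenceSubgroup ModularGroup
open UpperHalfPlane hiding I J
open Polynomial Fermat.Agent.ModFun Fermat.Agent.ESCore Fermat.Agent.Eis16 Fermat.Agent.LP
open scoped MatrixGroups Manifold IntermediateField

noncomputable section

namespace Fermat.Agent.KL

/-- the arithmetic of the base function at a place -/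
structure BaseData {p : ℕ} [NeZero p] {κ : ℤ} (H : HauptFn p κ) (A : ValuationSubring Qb) where
  c₁ : A
  hc₁ : IsUnit c₁
  e : ℕ
  he : 0 < e
  order : ∀ τ₀ : ℍ, analyticOrderAt (fun z : ℂ => H.t (ofComplex z) - H.t τ₀) (τ₀ : ℂ) =
    if H.t τ₀ = ιC c₁ then (e : ℕ∞) else 1
  q : Qb[X]
  hq : ∀ τ, J τ * H.t τ = q.eval₂ ιC (H.t τ)
  hu : IsUnit (((κ : ℤ) : A) ^ 2 * ((p : ℕ) : A) ^ 4)

section

variable {p : ℕ} [NeZero p] {κ : ℤ} {H : HauptFn p κ} {A : ValuationSubring Qb}
  (D : BaseData H A) (hp : p.Prime) {M : ℕ} [NeZero M] (hpM : p ∣ M)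

include hp hpM D in
theorem exists_exp_A (γ : SL(2, ℤ)) : ∃ (T : LaurentSeries A) (n : ℤ),
    HasExp ιC (qN M) (fun τ => H.t (γ • τ)) (mapLS (algebraMap A Qb) T) ∧ LeadU T n ∧
      (γ ∈ Gamma0 p → n = M) ∧ (γ ∉ Gamma0 p → n = -((M / p : ℕ) : ℤ)) := by
  obtain ⟨ζ, hζ1, hζ2⟩ := exists_zeta M
  obtain ⟨u, hu⟩ := exists_zeta_unit A (Nat.pos_of_ne_zero (NeZero.ne M)) hζ1
  obtain ⟨T, n, h1, h2, h3, h4⟩ := exists_exp_haupt H (φ := ιC.comp A.subtype) hp hpM (ζ := u)
    (by
      rw [← hζ2, ← hu]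
      rfl) D.hu γ
  refine ⟨T, n, ?_, h2, h3, h4⟩
  rw [mapLS_eq_coeffMap]
  exact h1.coeffMap (algebraMap A Qb) rfl

/-- the base function as an element of `modFun` -/
def tM : modFun ιC M := ⟨H.t, H.mdiff, fun γ => by
  obtain ⟨T, n, h1, -⟩ := exists_exp_A D hp hpM γ
  exact ⟨_, h1⟩⟩

theorem exists_expAt_tM (γ : SL(2, ℤ)) : ∃ (T : LaurentSeries A) (n : ℤ),
    expAt ιC M γ (tM D hp hpM) = mapLS (algebraMap A Qb) T ∧ LeadU T n ∧
      (γ ∈ Gamma0 p → n = M) ∧ (γ ∉ Gamma0 p → n = -((M / p : ℕ) : ℤ)) := by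
  obtain ⟨T, n, h1, h2⟩ := exists_exp_A D hp hpM γ
  exact ⟨T, n, expAt_eq ιC M h1, h2⟩

/-- the base function in the function field -/
abbrev tF : FF ιC M := algebraMap (modFun ιC M) (FF ιC M) (tM D hp hpM)

/-- the base field -/
abbrev BF : IntermediateField Qb (FF ιC M) := base ιC M (tF D hp hpM)

/-- `Qb[X] → Qb(t)` -/
def βt : Qb[X] →+* BF D hp hpM :=
  (aeval (IntermediateField.AdjoinSimple.gen Qb (tF D hp hpM)) :
    Qb[X] →ₐ[Qb] BF D hp hpM).toRingHom

theorem βt_C (a : Qb) : βt D hp hpM (C a) = algebraMap Qb (BF D hp hpM) a := aeval_C _ _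

theorem coe_βt_C (a : Qb) : ((βt D hp hpM (C a) : BF D hp hpM) : FF ιC M) =
    algebraMap Qb (FF ιC M) a := by
  rw [βt_C]
  rfl

theorem βt_X : βt D hp hpM X = IntermediateField.AdjoinSimple.gen Qb (tF D hp hpM) := aeval_X _

theorem coe_βt_X : ((βt D hp hpM X : BF D hp hpM) : FF ιC M) = tF D hp hpM := by
  rw [βt_X]
  rfl

theorem expF_βt (γ : SL(2, ℤ)) (r : Qb[X]) :
    expF ιC M γ ((βt D hp hpM r : BF D hp hpM) : FF ιC M) =
      evT (expAt ιC M γ (tM D hp hpM)) r := by
  have h : ((expF ιC M γ).comp (algebraMap (BF D hp hpM) (FF ιC M))).comp (βt D hp hpM) =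
      evT (expAt ιC M γ (tM D hp hpM)) := by
    refine Polynomial.ringHom_ext (fun a => ?_) ?_
    · rw [RingHom.comp_apply, RingHom.comp_apply, evT_C]
      change expF ιC M γ ((βt D hp hpM (C a) : BF D hp hpM) : FF ιC M) = _
      rw [coe_βt_C, expF_const]
    · rw [RingHom.comp_apply, RingHom.comp_apply, evT_X]
      change expF ιC M γ ((βt D hp hpM X : BF D hp hpM) : FF ιC M) = _
      rw [coe_βt_X, expF_algebraMap]
  exact congrArg (fun g : Qb[X] →+* LaurentSeries Qb => g r) h

theorem βt_injective : Function.Injective (βt D hp hpM) := by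
  rw [injective_iff_map_eq_zero]
  intro r hr
  by_contra hr0
  obtain ⟨T, n, h1, h2, h3, -⟩ := exists_expAt_tM D hp hpM 1
  have hn : n ≠ 0 := by
    rw [h3 (one_mem _)]
    exact_mod_cast NeZero.ne M
  have h4 := expF_βt D hp hpM 1 r
  rw [hr, h1] at h4
  have h5 : expF ιC M 1 (((0 : BF D hp hpM)) : FF ιC M) = 0 := map_zero _
  rw [h5] at h4
  refine evT_ne_zero hn ?_ hr0 h4.symm
  rw [mapLS_eq_coeffMap, ModularCurve.coeffMap_coeff]
  intro h6
  have h7 : T.coeff n = 0 := Subtype.ext h6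
  exact h2.2.ne_zero h7

theorem βt_surj (x : BF D hp hpM) : ∃ r s : Qb[X], x = βt D hp hpM r / βt D hp hpM s := by
  obtain ⟨r, s, hrs⟩ := (IntermediateField.mem_adjoin_simple_iff Qb (x : FF ιC M)).mp x.2
  refine ⟨r, s, ?_⟩
  apply Subtype.val_injective
  have h1 : ∀ r : Qb[X], aeval (tF D hp hpM) r = ((βt D hp hpM r : BF D hp hpM) : FF ιC M) := by
    intro r
    have h2 : aeval (tF D hp hpM) = (BF D hp hpM).val.comp
        (aeval (IntermediateField.AdjoinSimple.gen Qb (tF D hp hpM))) := by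
      refine Polynomial.algHom_ext ?_
      rw [aeval_X, AlgHom.comp_apply, aeval_X]
      rfl
    rw [h2]
    rfl
  rw [hrs, h1, h1]
  rfl

theorem tF_ne_zero : tF D hp hpM ≠ 0 := by
  intro h
  have h1 : βt D hp hpM X = 0 := by
    apply Subtype.val_injective
    rw [coe_βt_X, h]
    rfl
  have h2 := βt_injective D hp hpM (h1.trans (map_zero _).symm)
  exact X_ne_zero h2

theorem JM_mem : algebraMap (modFun ιC M) (FF ιC M) (JM ιC M) ∈ BF D hp hpM := by
  have h1 : JM ιC M * tM D hp hpM = aeval (tM D hp hpM) D.q := by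
    ext τ
    have h3 : ((Pi.evalRingHom (fun _ : ℍ => ℂ) τ).comp ((modFun ιC M).subtype.comp
        (aeval (tM D hp hpM) : Qb[X] →ₐ[Qb] modFun ιC M).toRingHom)) =
        eval₂RingHom ιC (H.t τ) := by
      refine Polynomial.ringHom_ext (fun a => ?_) ?_
      · simp only [RingHom.comp_apply, coe_eval₂RingHom, eval₂_C]
        change (((aeval (tM D hp hpM) (C a) : modFun ιC M)) : ℍ → ℂ) τ = ιC a
        rw [aeval_C]
        rfl
      · simp only [RingHom.comp_apply, coe_eval₂RingHom, eval₂_X]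
        change (((aeval (tM D hp hpM) X : modFun ιC M)) : ℍ → ℂ) τ = H.t τ
        rw [aeval_X]
        rfl
    have h4 := congrArg (fun g : Qb[X] →+* ℂ => g D.q) h3
    exact (D.hq τ).trans h4.symm
  have h2 := congrArg (algebraMap (modFun ιC M) (FF ιC M)) h1
  rw [map_mul, ← aeval_algebraMap_apply] at h2
  have h3 : algebraMap (modFun ιC M) (FF ιC M) (JM ιC M) =
      aeval (tF D hp hpM) D.q / tF D hp hpM := by
    rw [eq_div_iff (tF_ne_zero D hp hpM)]
    exact h2
  rw [h3]
  refine div_mem ?_ (IntermediateField.mem_adjoin_simple_self Qb _)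
  exact (IntermediateField.algebra_adjoin_le_adjoin Qb _)
    (Polynomial.aeval_mem_adjoin_singleton _ _)

/-- places above points of the upper half plane -/
theorem exists_holF (c : Qb) (hc : c ≠ 0) : ∃ θ : FF ιC M →+* LaurentSeries ℂ,
    ∀ r, θ ((βt D hp hpM r : BF D hp hpM) : FF ιC M) = ModularCurve.coeffMap ιC
      (evT (HahnSeries.C c + HahnSeries.single (if c = D.c₁ then (D.e : ℤ) else 1) 1) r) := by
  have hc' : ιC c ≠ 0 := (map_ne_zero ιC).mpr hc
  obtain ⟨τ₀, hτ₀⟩ := H.surjective hp hc'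
  set e : ℕ := if c = D.c₁ then D.e else 1 with he
  have hepos : 0 < e := by
    rw [he]
    split_ifs
    · exact D.he
    · exact one_pos
  have hord : analyticOrderAt (fun z : ℂ => H.t (ofComplex z) - H.t τ₀) (τ₀ : ℂ) = e := by
    rw [D.order, hτ₀, he]
    by_cases h : c = D.c₁
    · rw [if_pos h, if_pos (by rw [h])]
    · rw [if_neg h, if_neg (fun h' => h (ιC.injective h')), Nat.cast_one]
  obtain ⟨ψ, hψ1, hψ2⟩ := exists_local_param ⟨H.t, H.mdiff⟩ τ₀ e hepos hord
  have hψ : Function.Injective (ψ : HolRing →+* PowerSeries ℂ) := by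
    rw [injective_iff_map_eq_zero]
    intro g hg
    apply eq_zero_of_order_eq_top τ₀
    rw [← hψ2]
    have : ψ g = 0 := hg
    rw [this, PowerSeries.order_zero]
  refine ⟨holF ιC M (ψ : HolRing →+* PowerSeries ℂ) hψ, fun r => ?_⟩
  have h : ((holF ιC M (ψ : HolRing →+* PowerSeries ℂ) hψ).comp
      (algebraMap (BF D hp hpM) (FF ιC M))).comp (βt D hp hpM) =
      (ModularCurve.coeffMap ιC).comp
      (evT (HahnSeries.C c + HahnSeries.single (if c = D.c₁ then (D.e : ℤ) else 1) 1)) := by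
    refine Polynomial.ringHom_ext (fun a => ?_) ?_
    · rw [RingHom.comp_apply, RingHom.comp_apply, RingHom.comp_apply, evT_C]
      change holF ιC M _ hψ ((βt D hp hpM (C a) : BF D hp hpM) : FF ιC M) = _
      rw [coe_βt_C, IsScalarTower.algebraMap_apply Qb (modFun ιC M) (FF ιC M), holF_algebraMap]
      have h1 : toHol ιC M (algebraMap Qb (modFun ιC M) a) = algebraMap ℂ HolRing (ιC a) := rfl
      rw [h1]
      change HahnSeries.ofPowerSeries ℤ ℂ (ψ (algebraMap ℂ HolRing (ιC a))) = _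
      rw [AlgHom.commutes]
      have h2 : algebraMap ℂ (PowerSeries ℂ) (ιC a) = PowerSeries.C (ιC a) := rfl
      rw [h2, HahnSeries.ofPowerSeries_C]
      ext n
      rw [ModularCurve.coeffMap_coeff, HahnSeries.C_apply, HahnSeries.C_apply]
      by_cases hn : n = 0
      · subst hn
        rw [HahnSeries.coeff_single_same, HahnSeries.coeff_single_same]
      · rw [HahnSeries.coeff_single_of_ne hn, HahnSeries.coeff_single_of_ne hn, map_zero]
    · rw [RingHom.comp_apply, RingHom.comp_apply, RingHom.comp_apply, evT_X]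
      change holF ιC M _ hψ ((βt D hp hpM X : BF D hp hpM) : FF ιC M) = _
      rw [coe_βt_X, holF_algebraMap]
      change HahnSeries.ofPowerSeries ℤ ℂ (ψ ⟨H.t, H.mdiff⟩) = _
      rw [hψ1, map_add, HahnSeries.ofPowerSeries_C, HahnSeries.ofPowerSeries_X_pow, map_add]
      have hce : (if c = D.c₁ then (D.e : ℤ) else 1) = (e : ℤ) := by
        rw [he]
        split_ifs <;> simp
      rw [hce]
      congr 1
      · have h3 : (HahnSeries.C (H.t τ₀) : LaurentSeries ℂ) =
            ModularCurve.coeffMap ιC (HahnSeries.C c) := by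
          rw [hτ₀]
          ext n
          rw [ModularCurve.coeffMap_coeff, HahnSeries.C_apply, HahnSeries.C_apply]
          by_cases hn : n = 0
          · subst hn
            rw [HahnSeries.coeff_single_same, HahnSeries.coeff_single_same]
          · rw [HahnSeries.coeff_single_of_ne hn, HahnSeries.coeff_single_of_ne hn, map_zero]
        exact h3
      · ext n
        rw [ModularCurve.coeffMap_coeff]
        by_cases hn : n = e
        · subst hn
          rw [HahnSeries.coeff_single_same, HahnSeries.coeff_single_same, map_one]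
        · rw [HahnSeries.coeff_single_of_ne hn, HahnSeries.coeff_single_of_ne hn, map_zero]
  exact congrArg (fun g : Qb[X] →+* LaurentSeries ℂ => g r) h

end

end Fermat.Agent.KL
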