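import Mathlib
import Fermat.Agent.KL.Core

set_option autoImplicit false

/-!
# The comparison theorem for modular functions: main statement
-/

open Matrix.SpecialLinearGroup CongruenceSubgroup ModularGroup
open UpperHalfPlane hiding I J
open Polynomial Fermat.Agent.ModFun Fermat.Agent.ESCore Fermat.Agent.Eis16 Fermat.Agent.LP
open scoped MatrixGroups Manifold IntermediateField

noncomputable section

namespace Fermat.Agent.KL

section

variable {p : ℕ} [NeZero p] {κ : ℤ} {H : HauptFn p κ} {A : ValuationSubring Qb}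
  (D : BaseData H A) (hp : p.Prime) {M : ℕ} [NeZero M] (hpM : p ∣ M)
  (S : Set (modFun ιC M))

/-- the restriction of the expansion to the field generated by `S` -/
def thE (γ : SL(2, ℤ)) : ES ιC M (tF D hp hpM) S →+* LaurentSeries Qb :=
  (expF ιC M γ).comp (algebraMap (ES ιC M (tF D hp hpM) S) (FF ιC M))

theorem exists_cuspEmb {l : ℕ} (hl : l.Prime) (hA : A.LiesOverPrime l) (hlM : ¬ l ∣ M)
    (γ : SL(2, ℤ)) : ∃ (T : LaurentSeries A) (n : ℤ),
      CuspEmb' A (βt D hp hpM) (thE D hp hpM S γ) T n ∧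
      (γ ∈ Gamma0 p → n = M) ∧ (γ ∉ Gamma0 p → n = -((M / p : ℕ) : ℤ)) := by
  obtain ⟨T, n, h1, h2, h3, h4⟩ := exists_expAt_tM D hp hpM γ
  refine ⟨T, n, ⟨?_, h2.1, h2.2, fun r => ?_⟩, h3, h4⟩
  · by_cases hγ : γ ∈ Gamma0 p
    · rw [h3 hγ]
      have := isUnit_natCast hl A hA hlM
      exact_mod_cast this
    · rw [h4 hγ, Int.cast_neg, IsUnit.neg_iff]
      have := isUnit_natCast hl A hA (n := M / p)
        (fun h => hlM (h.trans (Nat.div_dvd_of_dvd hpM)))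
      exact_mod_cast this
  · have h5 := expF_βt D hp hpM γ r
    rw [h1] at h5
    exact h5

omit S in
include D hp hpM in
/-- **Comparison theorem for modular functions.** -/
theorem kl_core {l : ℕ} (hl : l.Prime) (hA : A.LiesOverPrime l) (hlM : ¬ l ∣ M)
    {m : ℕ} (hlm : ¬ l ∣ m) {f₁ f₂ : modFun ιC M} (hf₁ : f₁ ≠ 0) (hf₂ : f₂ ≠ 0)
    (hfin₁ : (Set.range fun γ => pull ιC M γ f₁).Finite)
    (hfin₂ : (Set.range fun γ => pull ιC M γ f₂).Finite)
    (hBD₁ : ∀ γ, ∃ F G : LaurentSeries A, G ≠ 0 ∧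
      mapLS (algebraMap A Qb) G * expAt ιC M γ f₁ ^ m = mapLS (algebraMap A Qb) F)
    (hBD₂ : ∀ γ, ∃ F G : LaurentSeries A, G ≠ 0 ∧
      mapLS (algebraMap A Qb) G * expAt ιC M γ f₂ ^ m = mapLS (algebraMap A Qb) F)
    {P₁ P₂ : LaurentSeries A}
    (hP : mapLS (IsLocalRing.residue A) P₁ = mapLS (IsLocalRing.residue A) P₂)
    (hP0 : mapLS (IsLocalRing.residue A) P₁ ≠ 0)
    (hyP : expAt ιC M 1 f₁ ^ m * mapLS (algebraMap A Qb) P₂ =
      expAt ιC M 1 f₂ ^ m * mapLS (algebraMap A Qb) P₁)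
    {γ : SL(2, ℤ)} {χ₁ χ₂ : Qb} (hχ₁ : χ₁ ^ m = 1) (hχ₂ : χ₂ ^ m = 1)
    (h₁ : pull ιC M γ f₁ = algebraMap Qb _ χ₁ * f₁)
    (h₂ : pull ιC M γ f₂ = algebraMap Qb _ χ₂ * f₂) : χ₁ = χ₂ := by
  classical
  set S : Set (modFun ιC M) := (Set.range fun γ => pull ιC M γ f₁) ∪
    (Set.range fun γ => pull ιC M γ f₂) with hSdef
  have hfin : S.Finite := hfin₁.union hfin₂
  have hS : ∀ f ∈ S, ∀ γ, pull ιC M γ f ∈ S := by
    rintro f (⟨δ, rfl⟩ | ⟨δ, rfl⟩) γ
    · exact Or.inl ⟨δ * γ, (pull_pull ιC M γ δ f₁).symm⟩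
    · exact Or.inr ⟨δ * γ, (pull_pull ιC M γ δ f₂).symm⟩
  obtain ⟨ζ, hζ1, hζ2⟩ := exists_zeta M
  have hζ0 : ζ ≠ 0 := by
    rintro rfl
    rw [zero_pow (NeZero.ne M)] at hζ1
    exact zero_ne_one hζ1
  obtain ⟨Q, hQ1, hQ2⟩ := exists_splitting (tF D hp hpM) hfin hS (ζ := Units.mk0 ζ hζ0)
    hζ2 (JM_mem D hp hpM)
  let F := BF D hp hpM
  let E := ES ιC M (tF D hp hpM) S
  haveI hQ1' : Q.IsSplittingField F E := hQ1
  haveI : FiniteDimensional F E := IsSplittingField.finiteDimensional E Q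
  haveI : Normal F E := Normal.of_isSplittingField Q
  haveI : IsGalois F E := ⟨⟩
  have hinjE : Function.Injective (algebraMap E (FF ιC M)) := RingHom.injective _
  -- elements
  have hmem : ∀ f ∈ S, ∃ x : E, algebraMap E (FF ιC M) x = algebraMap (modFun ιC M) (FF ιC M) f :=
    fun f hf => ⟨⟨_, IntermediateField.subset_adjoin _ _ ⟨f, hf, rfl⟩⟩, rfl⟩
  obtain ⟨x₁, hx₁⟩ := hmem f₁ (Or.inl ⟨1, pull_one ιC M f₁⟩)
  obtain ⟨x₂, hx₂⟩ := hmem f₂ (Or.inr ⟨1, pull_one ιC M f₂⟩)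
  have hinjF : Function.Injective (algebraMap (modFun ιC M) (FF ιC M)) :=
    IsFractionRing.injective _ _
  have hx₁0 : x₁ ≠ 0 := by
    rintro rfl
    rw [map_zero] at hx₁
    exact hf₁ (hinjF (hx₁.symm.trans (map_zero _).symm))
  have hx₂0 : x₂ ≠ 0 := by
    rintro rfl
    rw [map_zero] at hx₂
    exact hf₂ (hinjF (hx₂.symm.trans (map_zero _).symm))
  have hth : ∀ (δ : SL(2, ℤ)) (x : E) (f : modFun ιC M),
      algebraMap E (FF ιC M) x = algebraMap (modFun ιC M) (FF ιC M) f →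
      thE D hp hpM S δ x = expAt ιC M δ f := by
    intro δ x f hx
    change expF ιC M δ (algebraMap E (FF ιC M) x) = _
    rw [hx, expF_algebraMap]
  -- the roots of `Q`
  set Y : Set E := Q.rootSet E with hY
  have hYS : ∀ y ∈ Y, ∃ f ∈ S, algebraMap E (FF ιC M) y =
      algebraMap (modFun ιC M) (FF ιC M) f := by
    intro y hy
    rw [hY, mem_rootSet'] at hy
    have h3 : aeval (algebraMap E (FF ιC M) y) Q = 0 := by
      rw [aeval_algebraMap_apply, hy.2, map_zero]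
    rw [← eval_map_algebraMap] at h3
    have h4 : (Q.map (algebraMap F (FF ιC M))) =
        ∏ g ∈ hfin.toFinset, (X - C (algebraMap (modFun ιC M) (FF ιC M) g)) := hQ2
    rw [h4, eval_prod, Finset.prod_eq_zero_iff] at h3
    obtain ⟨g, hg, hg'⟩ := h3
    rw [eval_sub, eval_X, eval_C, sub_eq_zero] at hg'
    exact ⟨g, hfin.mem_toFinset.mp hg, hg'⟩
  have hgen : IntermediateField.adjoin F Y = ⊤ := by
    rw [eq_top_iff]
    intro x _
    have h3 : x ∈ Algebra.adjoin F (Q.rootSet E) := by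
      rw [IsSplittingField.adjoin_rootSet E Q]
      trivial
    exact IntermediateField.algebra_adjoin_le_adjoin F _ h3
  have hstab : ∀ g : E ≃ₐ[F] E, ∀ y ∈ Y, g y ∈ Y := by
    intro g y hy
    rw [hY, mem_rootSet'] at hy ⊢
    refine ⟨hy.1, ?_⟩
    have := Polynomial.aeval_algHom_apply (g : E →ₐ[F] E) y Q
    change aeval ((g : E →ₐ[F] E) y) Q = 0
    rw [this, hy.2, map_zero]
  have hBD : ∀ y ∈ Y, ∃ f g : LaurentSeries A, g ≠ 0 ∧
      mapLS (algebraMap A Qb) g * thE D hp hpM S 1 (y ^ m) = mapLS (algebraMap A Qb) f := by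
    intro y hy
    obtain ⟨f, hf, hf'⟩ := hYS y hy
    rw [map_pow, hth 1 y f hf']
    rcases hf with ⟨δ, rfl⟩ | ⟨δ, rfl⟩
    · obtain ⟨F', G', hG, h⟩ := hBD₁ δ
      refine ⟨F', G', hG, ?_⟩
      have h3 : expAt ιC M 1 (pull ιC M δ f₁) = expAt ιC M δ f₁ := by
        refine expAt_eq ιC M ?_
        have := expAt_spec ιC M δ f₁
        refine this.congr fun τ => ?_
        rw [one_smul]
        rfl
      change mapLS (algebraMap A Qb) G' * expAt ιC M 1 (pull ιC M δ f₁) ^ m = _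
      rw [h3, h]
    · obtain ⟨F', G', hG, h⟩ := hBD₂ δ
      refine ⟨F', G', hG, ?_⟩
      have h3 : expAt ιC M 1 (pull ιC M δ f₂) = expAt ιC M δ f₂ := by
        refine expAt_eq ιC M ?_
        have := expAt_spec ιC M δ f₂
        refine this.congr fun τ => ?_
        rw [one_smul]
        rfl
      change mapLS (algebraMap A Qb) G' * expAt ιC M 1 (pull ιC M δ f₂) ^ m = _
      rw [h3, h]
  -- cusps
  have hMp : 0 < M := Nat.pos_of_ne_zero (NeZero.ne M)
  obtain ⟨Ti, ni, hTi, hni, -⟩ := exists_cuspEmb D hp hpM S hl hA hlM 1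
  have hni' := hni (one_mem _)
  subst hni'
  obtain ⟨Tz, nz, hTz, -, hnz⟩ := exists_cuspEmb D hp hpM S hl hA hlM ModularGroup.S
  have hS0 : ModularGroup.S ∉ Gamma0 p := by
    rw [Gamma0_mem]
    simp only [ModularGroup.coe_S]
    simp
    have : (p : ℕ) ≠ 1 := hp.ne_one
    haveI : Fact p.Prime := ⟨hp⟩
    exact one_ne_zero
  have hnz' := hnz hS0
  subst hnz'
  obtain ⟨T₂, n₂, hT₂, -⟩ := exists_cuspEmb D hp hpM S hl hA hlM γ
  -- places
  have hplace : ∀ c : Qb, c ≠ 0 → ∃ θ : E →+* LaurentSeries Qb, ∀ r,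
      θ (algebraMap F E (βt D hp hpM r)) =
        evT (HahnSeries.C c + HahnSeries.single (if c = D.c₁ then (D.e : ℤ) else 1) 1) r := by
    intro c hc
    obtain ⟨θ, hθ⟩ := exists_holF D hp hpM c hc
    exact exists_place (F := F) (E := E) (βt D hp hpM) (βt_surj D hp hpM)
      (θ.comp (algebraMap E (FF ιC M))) _ hθ
  -- the element
  have hm0 : m ≠ 0 := by
    rintro rfl
    exact hlm (dvd_zero l)
  have hχ₂0 : χ₂ ≠ 0 := by
    rintro rfl
    rw [zero_pow hm0] at hχ₂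
    exact zero_ne_one hχ₂
  have hχm : (χ₁ / χ₂) ^ m = 1 := by rw [div_pow, hχ₁, hχ₂, div_one]
  obtain ⟨u, hu⟩ := exists_zeta_unit A (Nat.pos_of_ne_zero hm0) hχm
  have huone : (u : A) = 1 := by
    refine comparison_concrete (A := A) (F := F) (E := E) hl hA (βt D hp hpM)
      (βt_injective D hp hpM) (βt_surj D hp hpM) (c₁ := D.c₁) D.hc₁ ?_ ?_
      (ni := M) (nz := M / p) hMp ?_ hTi hTz hlm hgen hstab hBD hTi hT₂
      (y := x₁ / x₂) (div_ne_zero hx₁0 hx₂0) hP hP0 ?_ ?_ ?_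
    · intro c hc hc'
      obtain ⟨θ, hθ⟩ := hplace c hc
      rw [if_neg hc'] at hθ
      exact ⟨θ, hθ⟩
    · have hc0 : (D.c₁ : Qb) ≠ 0 := by
        intro h
        have h3 : D.c₁ = 0 := Subtype.ext h
        exact D.hc₁.ne_zero h3
      obtain ⟨θ, hθ⟩ := hplace D.c₁ hc0
      rw [if_pos rfl] at hθ
      exact ⟨D.e, D.he, θ, hθ⟩
    · exact Nat.div_pos (Nat.le_of_dvd hMp hpM) hp.pos
    · rw [map_div₀, hth 1 x₁ f₁ hx₁, hth 1 x₂ f₂ hx₂, div_pow]
      have h3 : expAt ιC M 1 f₂ ^ m ≠ 0 := pow_ne_zero _ (by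
        rw [Ne, map_eq_zero_iff _ (expAt_injective ιC M 1)]
        exact hf₂)
      rw [div_mul_eq_mul_div, hyP, mul_div_cancel_left₀ _ h3]
    · apply Subtype.val_injective
      push_cast
      rw [hu, hχm]
    · have h3 : ∀ {f : modFun ιC M} {χ : Qb}, pull ιC M γ f = algebraMap Qb _ χ * f →
          expAt ιC M γ f = HahnSeries.C χ * expAt ιC M 1 f := by
        intro f χ h
        rw [← expAt_algebraMap ιC M 1 χ, ← map_mul, ← h]
        refine expAt_eq ιC M ?_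
        have := expAt_spec ιC M 1 (pull ιC M γ f)
        refine this.congr fun τ => ?_
        rw [one_smul]
        rfl
      rw [map_div₀, map_div₀, hth γ x₁ f₁ hx₁, hth γ x₂ f₂ hx₂, hth 1 x₁ f₁ hx₁,
        hth 1 x₂ f₂ hx₂, h3 h₁, h3 h₂]
      have h4 : algebraMap A Qb (u : A) = χ₁ / χ₂ := hu
      rw [h4, map_div₀, mul_div_mul_comm]
  have h5 : χ₁ / χ₂ = 1 := by rw [← hu, huone]; rfl
  rwa [div_eq_one_iff_eq hχ₂0] at h5

end

end Fermat.Agent.KL
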