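import Mathlib
import Fermat.Agent.KL.Main
import Fermat.Agent.KL.BD
import Fermat.Agent.ESCore.GalConj
import Fermat.Agent.ESCore.Relation

set_option autoImplicit false

/-!
# The uniqueness lemma KL
-/

open Matrix.SpecialLinearGroup CongruenceSubgroup ModularGroup Filter
open UpperHalfPlane hiding I J
open Polynomial Fermat.Agent.ModFun Fermat.Agent.ESCore Fermat.Agent.ESCore.Gal Fermat.Agent.LP
open scoped MatrixGroups Manifold IntermediateField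

noncomputable section

namespace Fermat.Agent.KL

local notation "Δ" => ModularForm.discriminant

/-- The uniqueness lemma for characters of `G`. -/
def KLPropG (G : Subgroup SL(2, ℤ)) (m : ℕ) (A : ValuationSubring Qb) : Prop :=
  ∀ (χ₁ χ₂ : XGen G m) (n : ℕ) (F₁ F₂ : ℍ → ℂ), F₁ ∈ mform χ₁.1 (12 * n) →
    F₂ ∈ mform χ₂.1 (12 * n) → ∀ P₁ P₂ : PowerSeries A,
    qExpansion 1 (F₁ ^ m) = (P₁.map A.subtype).map ιC →
    qExpansion 1 (F₂ ^ m) = (P₂.map A.subtype).map ιC →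
    P₁.map (IsLocalRing.residue A) = P₂.map (IsLocalRing.residue A) →
    P₁.map (IsLocalRing.residue A) ≠ 0 → χ₁ = χ₂

theorem klProp_iff (N m : ℕ) (A : ValuationSubring Qb) :
    KLProp N m A ↔ KLPropG (Gamma0 N) m A := Iff.rfl

theorem coeffMap_ofPS {R S : Type*} [CommRing R] [CommRing S] (f : R →+* S) (P : PowerSeries R) :
    ModularCurve.coeffMap f (HahnSeries.ofPowerSeries ℤ R P) =
      HahnSeries.ofPowerSeries ℤ S (P.map f) := by
  ext n
  rw [ModularCurve.coeffMap_coeff]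
  rcases lt_or_ge n 0 with hn | hn
  · rw [ModularCurve.ofPowerSeries_coeff_of_neg _ hn,
      ModularCurve.ofPowerSeries_coeff_of_neg _ hn, map_zero]
  · obtain ⟨k, rfl⟩ := Int.eq_ofNat_of_zero_le hn
    rw [HahnSeries.ofPowerSeries_apply_coeff, HahnSeries.ofPowerSeries_apply_coeff,
      PowerSeries.coeff_map]

theorem coeffMap_qExp {R S : Type*} [CommRing R] [CommRing S] (f : R →+* S) (d : ℕ) [NeZero d]
    (F : LaurentSeries R) : ModularCurve.coeffMap f (ModularCurve.qExpand R d F) =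
      ModularCurve.qExpand S d (ModularCurve.coeffMap f F) := by
  ext n
  rw [ModularCurve.coeffMap_coeff]
  by_cases h : (d : ℤ) ∣ n
  · obtain ⟨m, rfl⟩ := h
    rw [ModularCurve.qExpand_coeff_mul, ModularCurve.qExpand_coeff_mul,
      ModularCurve.coeffMap_coeff]
  · rw [ModularCurve.qExpand_coeff_of_not_dvd _ _ h, ModularCurve.qExpand_coeff_of_not_dvd _ _ h,
      map_zero]

section

variable {G : Subgroup SL(2, ℤ)} {N m M : ℕ} [NeZero M]

theorem div_smul_G {χ : G →* ℂˣ} {n : ℕ} {F : ℍ → ℂ} (hF : F ∈ mform χ (12 * n)) {g : SL(2, ℤ)}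
    (hg : g ∈ G) (τ : ℍ) : F (g • τ) / Δ (g • τ) ^ n = (χ ⟨g, hg⟩ : ℂ) * (F τ / Δ τ ^ n) := by
  rw [div_smul_eq, hF.2.1 ⟨g, hg⟩, Pi.smul_apply, smul_eq_mul, mul_div_assoc]

theorem T_zpow_mem_Gamma : (T ^ ((N : ℕ) : ℤ) : SL(2, ℤ)) ∈ Gamma N := by
  rw [Gamma_mem]
  rw [ModularGroup.coe_T_zpow]
  simp

omit [NeZero M] in
theorem smul_T_pow (hΓ : Gamma N ≤ G) {χ : G →* ℂˣ} (hχ : χ ^ m = 1) {n : ℕ} {F : ℍ → ℂ}
    (hF : F ∈ mform χ (12 * n)) (hM : N * m ∣ M) (γ : SL(2, ℤ)) (τ : ℍ) :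
    F (γ • ((M : ℝ) +ᵥ τ)) / Δ (γ • ((M : ℝ) +ᵥ τ)) ^ n = F (γ • τ) / Δ (γ • τ) ^ n := by
  obtain ⟨k, hk⟩ := hM
  have h1 : (T ^ (M : ℤ) : SL(2, ℤ)) = ((T ^ (N : ℤ) : SL(2, ℤ)) ^ m) ^ k := by
    rw [hk, ← zpow_natCast, ← zpow_natCast, ← zpow_mul, ← zpow_mul]
    push_cast
    ring_nf
  set g : SL(2, ℤ) := γ * T ^ (N : ℤ) * γ⁻¹ with hg
  have hgG : g ∈ G := hΓ ((Gamma_normal N).conj_mem _ T_zpow_mem_Gamma γ)
  have h2 : γ • ((M : ℝ) +ᵥ τ) = (((g ^ m) ^ k : SL(2, ℤ))) • (γ • τ) := by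
    have h3 : (((g ^ m) ^ k : SL(2, ℤ))) = γ * T ^ (M : ℤ) * γ⁻¹ := by
      rw [hg, conj_pow, conj_pow, h1]
    rw [h3, ← mul_smul, inv_mul_cancel_right, mul_smul, modular_T_zpow_smul]
    push_cast
    rfl
  have hgm : g ^ m ∈ G := pow_mem hgG m
  have hgk : (g ^ m) ^ k ∈ G := pow_mem hgm k
  rw [h2, div_smul_G hF hgk]
  have h4 : χ ⟨(g ^ m) ^ k, hgk⟩ = 1 := by
    have h5 : (⟨(g ^ m) ^ k, hgk⟩ : G) = ((⟨g, hgG⟩ : G) ^ m) ^ k := rfl
    rw [h5, map_pow, map_pow]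
    have h6 := congrArg (fun ψ : G →* ℂˣ => ψ ⟨g, hgG⟩) hχ
    simp only [MonoidHom.pow_apply, MonoidHom.one_apply] at h6
    rw [h6, one_pow]
  rw [h4, Units.val_one, one_mul]

theorem divD_mem_modFun_id (hΓ : Gamma N ≤ G) {χ : G →* ℂˣ} (hχ : χ ^ m = 1) {n : ℕ} {F : ℍ → ℂ}
    (hF : F ∈ mform χ (12 * n)) (hM : N * m ∣ M) :
    (divD hF.1 n : ℍ → ℂ) ∈ modFun (RingHom.id ℂ) M := by
  obtain ⟨h1, k, hk⟩ := divD_mem_MB hF
  refine ⟨h1, fun γ => ?_⟩
  have h2 : (fun τ : ℍ => qN 1 τ) =O[atImInfty] (Δ : ℍ → ℂ) := by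
    refine Asymptotics.IsBigO.trans ?_ ModularForm.exp_isBigO_discriminant
    refine Asymptotics.isBigO_of_le _ fun τ => ?_
    rw [qN_apply, Nat.cast_one, Function.Periodic.norm_qParam]
    rw [Real.norm_of_nonneg (Real.exp_nonneg _)]
    simp
  have hq : ∀ τ : ℍ, qN M τ ^ (M * k) = qN 1 τ ^ k := by
    intro τ
    rw [pow_mul]
    congr 1
    have hM0 : (M : ℂ) ≠ 0 := by exact_mod_cast NeZero.ne M
    rw [qN_apply, qN_apply, Function.Periodic.qParam, Function.Periodic.qParam,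
      ← Complex.exp_nat_mul]
    congr 1
    push_cast
    field_simp
  have hb : IsBoundedAtImInfty (fun τ => qN M τ ^ (M * k) *
      (divD hF.1 n : ℍ → ℂ) (γ • τ)) := by
    have h3 : IsBoundedAtImInfty (Δ ^ k * (fun τ : ℍ => (divD hF.1 n : ℍ → ℂ) (γ • τ))) := hk γ
    have h4 : (fun τ => qN M τ ^ (M * k) * (divD hF.1 n : ℍ → ℂ) (γ • τ)) =O[atImInfty]
        (Δ ^ k * (fun τ : ℍ => (divD hF.1 n : ℍ → ℂ) (γ • τ)) : ℍ → ℂ) := by
      have h5 := (h2.pow k).mul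
        (Asymptotics.isBigO_refl (fun τ : ℍ => (divD hF.1 n : ℍ → ℂ) (γ • τ)) atImInfty)
      refine h5.congr_left fun τ => ?_
      rw [hq]
    exact h4.trans h3
  refine exists_hasExp (N := M) (ModFun.mdiff_smul h1 γ) (fun τ => ?_) (M * k) hb
  exact smul_T_pow hΓ hχ hF hM γ τ

/-- the expansion at infinity of `F ^ m / Δ ^ (n m)` -/
theorem exists_exp_pow {P : PowerSeries Qb} {F : ℍ → ℂ} (n : ℕ)
    (hP : HasExp (RingHom.id ℂ) (qN 1) (F ^ m) (HahnSeries.ofPowerSeries ℤ ℂ (P.map ιC))) :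
    ∃ X : LaurentSeries Qb, HasExp ιC (qN 1) (fun τ => (F τ / Δ τ ^ n) ^ m) X := by
  rw [← coeffMap_ofPS, hasExp_coeffMap_iff ιC (RingHom.id_comp ιC)] at hP
  have h1 := hasExp_discriminant_inv.coeffMap (Int.castRingHom Qb) (ψ := ιC) (RingHom.ext_int _ _)
  refine ⟨_, (hP.mul (h1.pow (n * m))).congr fun τ => ?_⟩
  simp only [Pi.mul_apply, Pi.pow_apply, Pi.inv_apply]
  rw [div_pow, ← pow_mul, inv_pow, div_eq_mul_inv]

/-- `F / Δ^n` has algebraic expansions, with bounded denominators -/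
theorem exists_good (hm : 0 < m) (hΓ : Gamma N ≤ G) {χ : G →* ℂˣ} (hχ : χ ^ m = 1) {n : ℕ}
    {F : ℍ → ℂ} (hF : F ∈ mform χ (12 * n)) (hM : N * m ∣ M) {A : ValuationSubring Qb}
    (hBD : BDProp G M A) {P : PowerSeries Qb}
    (hP : HasExp (RingHom.id ℂ) (qN 1) (F ^ m) (HahnSeries.ofPowerSeries ℤ ℂ (P.map ιC))) :
    ∃ f : modFun ιC M, (f : ℍ → ℂ) = (fun τ => F τ / Δ τ ^ n) ∧
      ∀ γ, expAt ιC M γ f ^ m ∈ qLS A := by
  have h1 := divD_mem_modFun_id hΓ hχ hF hM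
  have h2 : (fun τ => (F τ / Δ τ ^ n) ^ m) ∈ modFun (RingHom.id ℂ) M := pow_mem h1 m
  have h3 := hBD _ h2 (fun g hg τ => by
    rw [div_smul_G hF hg, mul_pow]
    have h6 := congrArg (fun ψ : G →* ℂˣ => ((ψ ⟨g, hg⟩ : ℂˣ) : ℂ)) hχ
    simp only [MonoidHom.pow_apply, MonoidHom.one_apply, Units.val_pow_eq_pow_val,
      Units.val_one] at h6
    rw [h6, one_mul]) (exists_exp_pow n hP)
  have h4 : (fun τ => F τ / Δ τ ^ n) ∈ modFun ιC M := by
    refine ⟨h1.1, fun γ => ?_⟩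
    obtain ⟨Y, hY⟩ := h1.2 γ
    obtain ⟨X, hX, hX'⟩ := h3 γ
    have h5 : Y ^ m = ModularCurve.coeffMap ιC X := by
      have h6 := hY.pow m
      have h7 := hX'.coeffMap ιC (RingHom.id_comp ιC)
      exact h6.unique (RingHom.id ℂ).injective (isParam_qN M) h7
    obtain ⟨Z, hZ⟩ := exists_coeffMap_of_root (x := Y) (f := Polynomial.X ^ m - Polynomial.C X)
      (Polynomial.X_pow_sub_C_ne_zero hm X) (by
        rw [eval₂_sub, eval₂_X_pow, eval₂_C, h5, sub_self])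
    refine ⟨Z, ?_⟩
    rw [← hasExp_coeffMap_iff ιC (RingHom.id_comp ιC), hZ]
    exact hY
  refine ⟨⟨_, h4⟩, rfl, fun γ => ?_⟩
  obtain ⟨X, hX, hX'⟩ := h3 γ
  have h5 : expAt ιC M γ ⟨_, h4⟩ ^ m = X := by
    rw [← map_pow]
    exact expAt_eq ιC M hX'
  rw [h5]
  exact hX

theorem finite_range_pull [G.FiniteIndex] (hm : 0 < m) {f : modFun ιC M}
    (h : ∀ g ∈ G, ∀ τ : ℍ, ((f ^ m : modFun ιC M) : ℍ → ℂ) (g • τ) =
      ((f ^ m : modFun ιC M) : ℍ → ℂ) τ) :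
    (Set.range fun γ => pull ιC M γ f).Finite := by
  classical
  have h1 : (Set.range fun γ => pull ιC M γ (f ^ m)).Finite := by
    refine (Set.finite_range (fun x : SL(2, ℤ) ⧸ G => pull ιC M (x.out)⁻¹ (f ^ m))).subset ?_
    rintro _ ⟨γ, rfl⟩
    refine ⟨((γ⁻¹ : SL(2, ℤ)) : SL(2, ℤ) ⧸ G), ?_⟩
    obtain ⟨g, hg⟩ := QuotientGroup.mk_out_eq_mul G γ⁻¹
    simp only
    rw [hg]
    ext τ
    rw [pull_apply, pull_apply, mul_inv_rev, inv_inv, mul_smul]
    exact h _ (inv_mem g.2) _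
  have h2 : (Set.range fun γ => pull ιC M γ f) ⊆
      (fun x : modFun ιC M => x ^ m) ⁻¹' (Set.range fun γ => pull ιC M γ (f ^ m)) := by
    rintro _ ⟨γ, rfl⟩
    exact ⟨γ, map_pow _ _ _⟩
  refine (Set.Finite.preimage' h1 fun b _ => ?_).subset h2
  refine (Polynomial.nthRoots m b).toFinset.finite_toSet.subset ?_
  intro x hx
  rw [Finset.mem_coe, Multiset.mem_toFinset, Polynomial.mem_nthRoots hm]
  exact hx

end

theorem exists_baseData2 {l : ℕ} (hl : l.Prime) (A : ValuationSubring Qb)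
    (hA : A.LiesOverPrime l) (h2 : l ≠ 2) : Nonempty (BaseData haupt2 A) := by
  have hu2 : IsUnit ((2 : ℕ) : A) := isUnit_natCast hl A hA (fun h =>
    h2 ((Nat.prime_dvd_prime_iff_eq hl Nat.prime_two).mp h))
  obtain ⟨u, hu⟩ := hu2.pow 6
  have hu' : (((u⁻¹ : Aˣ) : A) : Qb) = 1 / 64 := by
    have h3 : (((u⁻¹ : Aˣ) : A) : Qb) * ((u : A) : Qb) = 1 := by
      have := congrArg (algebraMap A Qb) (Units.inv_mul u)
      rw [map_mul, map_one] at this
      exact this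
    have h4 : ((u : A) : Qb) = 64 := by
      have := congrArg (algebraMap A Qb) hu
      rw [map_pow, map_natCast] at this
      have h5 : ((u : A) : Qb) = ((2 : ℕ) : Qb) ^ 6 := this
      rw [h5]; norm_num
    rw [h4] at h3
    exact eq_one_div_of_mul_eq_one_left h3
  have hc : ιC ((-((u⁻¹ : Aˣ) : A) : A) : Qb) = -1 / 64 := by
    push_cast
    rw [map_neg, hu', map_div₀, map_one, map_ofNat]
    norm_num
  refine ⟨{ c₁ := -((u⁻¹ : Aˣ) : A), hc₁ := (u⁻¹).isUnit.neg, e := 2, he := two_pos,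
            order := fun τ₀ => ?_, q := (1 + 256 * X) ^ 3, hq := fun τ => ?_, hu := ?_ }⟩
  · rw [hc]
    exact_mod_cast order_t2 τ₀
  · rw [eval₂_pow, eval₂_add, eval₂_one, eval₂_mul, eval₂_X, eval₂_ofNat]
    exact J_mul_t2 τ
  · have h5 : (((16 : ℤ) : A) ^ 2 * ((2 : ℕ) : A) ^ 4) = ((2 : ℕ) : A) ^ 12 := by
      push_cast; norm_num
    rw [h5]
    exact hu2.pow 12

theorem exists_baseData3 {l : ℕ} (hl : l.Prime) (A : ValuationSubring Qb)
    (hA : A.LiesOverPrime l) (h3 : l ≠ 3) : Nonempty (BaseData haupt3 A) := by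
  have hu3 : IsUnit ((3 : ℕ) : A) := isUnit_natCast hl A hA (fun h =>
    h3 ((Nat.prime_dvd_prime_iff_eq hl Nat.prime_three).mp h))
  obtain ⟨u, hu⟩ := hu3.pow 3
  have hu' : (((u⁻¹ : Aˣ) : A) : Qb) = 1 / 27 := by
    have h3 : (((u⁻¹ : Aˣ) : A) : Qb) * ((u : A) : Qb) = 1 := by
      have := congrArg (algebraMap A Qb) (Units.inv_mul u)
      rw [map_mul, map_one] at this
      exact this
    have h4 : ((u : A) : Qb) = 27 := by
      have := congrArg (algebraMap A Qb) hu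
      rw [map_pow, map_natCast] at this
      have h5 : ((u : A) : Qb) = ((3 : ℕ) : Qb) ^ 3 := this
      rw [h5]; norm_num
    rw [h4] at h3
    exact eq_one_div_of_mul_eq_one_left h3
  have hc : ιC ((-((u⁻¹ : Aˣ) : A) : A) : Qb) = -1 / 27 := by
    push_cast
    rw [map_neg, hu', map_div₀, map_one, map_ofNat]
    norm_num
  refine ⟨{ c₁ := -((u⁻¹ : Aˣ) : A), hc₁ := (u⁻¹).isUnit.neg, e := 3, he := three_pos,
            order := fun τ₀ => ?_, q := (1 + 27 * X) * (1 + 243 * X) ^ 3, hq := fun τ => ?_,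
            hu := ?_ }⟩
  · rw [hc]
    exact_mod_cast order_t3 τ₀
  · rw [eval₂_mul, eval₂_pow, eval₂_add, eval₂_one, eval₂_mul, eval₂_X, eval₂_ofNat, eval₂_add,
      eval₂_one, eval₂_mul, eval₂_X, eval₂_ofNat]
    exact J_mul_t3 τ
  · have h5 : (((3 : ℤ) : A) ^ 2 * ((3 : ℕ) : A) ^ 4) = ((3 : ℕ) : A) ^ 6 := by
      push_cast; norm_num
    rw [h5]
    exact hu3.pow 6

/-- **The uniqueness lemma KL** for a group `G ⊇ Γ(N)`, from bounded denominators. -/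
theorem klPropG {G : Subgroup SL(2, ℤ)} [G.FiniteIndex] {N m : ℕ} (hN : 0 < N) (hm : 0 < m)
    (hΓ : Gamma N ≤ G) (hT : ModularGroup.T ∈ G) {l : ℕ} (hl : l.Prime) (hlN : ¬ l ∣ N)
    (hlm : ¬ l ∣ m) {A : ValuationSubring Qb} (hA : A.LiesOverPrime l)
    (hBD : ∀ M : ℕ, M ≠ 0 → N ∣ M → BDProp G M A) : KLPropG G m A := by
  -- the core, for a given base function
  have key : ∀ {p : ℕ} [NeZero p] {κ : ℤ} {H : HauptFn p κ} (_ : BaseData H A), p.Prime → l ≠ p →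
      KLPropG G m A := by
    intro p _ κ H D hp hlp χ₁ χ₂ n F₁ F₂ hF₁ hF₂ P₁ P₂ hP₁ hP₂ hP hP0
    set M : ℕ := N * m * p with hMdef
    haveI : NeZero M := ⟨(Nat.mul_pos (Nat.mul_pos hN hm) hp.pos).ne'⟩
    have hpM : p ∣ M := Dvd.intro_left _ rfl
    have hNM : N * m ∣ M := Dvd.intro _ rfl
    have hlM : ¬ l ∣ M := by
      rw [hMdef, hl.dvd_mul, hl.dvd_mul, Nat.prime_dvd_prime_iff_eq hl hp]
      tauto
    have hBDM := hBD M (NeZero.ne M) ((Dvd.intro m rfl).trans hNM)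
    have hexp : ∀ {χ : G →* ℂˣ}, χ ^ m = 1 → ∀ {F : ℍ → ℂ}, F ∈ mform χ (12 * n) →
        ∀ {P : PowerSeries A}, qExpansion 1 (F ^ m) = (P.map A.subtype).map ιC →
        HasExp (RingHom.id ℂ) (qN 1) (F ^ m)
          (HahnSeries.ofPowerSeries ℤ ℂ ((P.map A.subtype).map ιC)) := by
      intro χ hχ F hF P hP
      rw [← hP]
      apply hasExp_of_hasQ
      refine hasQ_mform_G (G := G) hT (χ := 1) (fun g _ => rfl) (k := 12 * n * m) ?_
      exact mform_congr (mform_pow hF m) hχ rfl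
    have hE₁ := hexp χ₁.2.1 hF₁ hP₁
    have hE₂ := hexp χ₂.2.1 hF₂ hP₂
    obtain ⟨f₁, hf₁, hf₁'⟩ := exists_good hm hΓ χ₁.2.1 hF₁ hNM hBDM hE₁
    obtain ⟨f₂, hf₂, hf₂'⟩ := exists_good hm hΓ χ₂.2.1 hF₂ hNM hBDM hE₂
    -- non-vanishing
    have hne : ∀ {F : ℍ → ℂ} {P : PowerSeries A} {f : modFun ιC M},
        HasExp (RingHom.id ℂ) (qN 1) (F ^ m)
          (HahnSeries.ofPowerSeries ℤ ℂ ((P.map A.subtype).map ιC)) →
        (f : ℍ → ℂ) = (fun τ => F τ / Δ τ ^ n) → P.map (IsLocalRing.residue A) ≠ 0 → f ≠ 0 := by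
      rintro F P f hE hf hP' rfl
      have h1 : F ^ m = 0 := by
        ext τ
        have h2 := congrFun hf τ
        have h3 : F τ = 0 := by
          have h4 : (0 : ℂ) = F τ / Δ τ ^ n := h2
          have h5 := pow_ne_zero n (ModularForm.discriminant_ne_zero τ)
          rw [eq_comm, div_eq_zero_iff] at h4
          exact h4.resolve_right h5
        rw [Pi.pow_apply, h3, zero_pow hm.ne', Pi.zero_apply]
      rw [h1] at hE
      have h2 := hE.eq_zero (RingHom.id ℂ).injective (isParam_qN 1)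
      apply hP'
      have h3 : (P.map A.subtype).map ιC = 0 := by
        apply HahnSeries.ofPowerSeries_injective (Γ := ℤ)
        rw [h2, map_zero]
      have h4 : P = 0 := by
        ext k
        have h5 := congrArg (PowerSeries.coeff k) h3
        rw [PowerSeries.coeff_map, PowerSeries.coeff_map, map_zero, map_eq_zero] at h5
        rw [map_zero]
        exact h5
      rw [h4, map_zero]
    have hf₁0 : f₁ ≠ 0 := hne hE₁ hf₁ hP0
    have hf₂0 : f₂ ≠ 0 := hne hE₂ hf₂ (by rw [← hP]; exact hP0)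
    -- finiteness
    have hfin : ∀ {χ : G →* ℂˣ}, χ ^ m = 1 → ∀ {F : ℍ → ℂ}, F ∈ mform χ (12 * n) →
        ∀ {f : modFun ιC M}, (f : ℍ → ℂ) = (fun τ => F τ / Δ τ ^ n) →
        (Set.range fun γ => pull ιC M γ f).Finite := by
      intro χ hχ F hF f hf
      refine finite_range_pull (G := G) hm fun g hg τ => ?_
      change (f : ℍ → ℂ) (g • τ) ^ m = (f : ℍ → ℂ) τ ^ m
      rw [hf]
      change (F (g • τ) / Δ (g • τ) ^ n) ^ m = (F τ / Δ τ ^ n) ^ m
      rw [div_smul_G hF hg, mul_pow]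
      have h6 := congrArg (fun ψ : G →* ℂˣ => ((ψ ⟨g, hg⟩ : ℂˣ) : ℂ)) hχ
      simp only [MonoidHom.pow_apply, MonoidHom.one_apply, Units.val_pow_eq_pow_val,
        Units.val_one] at h6
      rw [h6, one_mul]
    -- the series
    set R₁ : LaurentSeries A := ModularCurve.qExpand A M (HahnSeries.ofPowerSeries ℤ A P₁) with hR₁
    set R₂ : LaurentSeries A := ModularCurve.qExpand A M (HahnSeries.ofPowerSeries ℤ A P₂) with hR₂
    have hR : mapLS (IsLocalRing.residue A) R₁ = mapLS (IsLocalRing.residue A) R₂ := by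
      rw [mapLS_eq_coeffMap, mapLS_eq_coeffMap, hR₁, hR₂, coeffMap_qExp, coeffMap_qExp,
        coeffMap_ofPS, coeffMap_ofPS, hP]
    have hR0 : mapLS (IsLocalRing.residue A) R₁ ≠ 0 := by
      rw [mapLS_eq_coeffMap, hR₁, coeffMap_qExp, coeffMap_ofPS]
      intro h
      apply hP0
      apply HahnSeries.ofPowerSeries_injective (Γ := ℤ)
      rw [map_zero]
      ext k
      have h1 := congrArg (fun x : LaurentSeries (IsLocalRing.ResidueField A) => x.coeff (M * k)) h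
      simp only [ModularCurve.qExpand_coeff_mul] at h1
      rw [h1]
      rfl
    have hexpR : ∀ {F : ℍ → ℂ} {P : PowerSeries A},
        HasExp (RingHom.id ℂ) (qN 1) (F ^ m)
          (HahnSeries.ofPowerSeries ℤ ℂ ((P.map A.subtype).map ιC)) →
        HasExp ιC (qN M) (F ^ m) (mapLS (algebraMap A Qb)
          (ModularCurve.qExpand A M (HahnSeries.ofPowerSeries ℤ A P))) := by
      intro F P hE
      rw [← coeffMap_ofPS, hasExp_coeffMap_iff ιC (RingHom.id_comp ιC)] at hE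
      have h1 := hE.level M
      rw [mapLS_eq_coeffMap, coeffMap_qExp, coeffMap_ofPS]
      exact h1
    have hRR : expAt ιC M 1 f₁ ^ m * mapLS (algebraMap A Qb) R₂ =
        expAt ιC M 1 f₂ ^ m * mapLS (algebraMap A Qb) R₁ := by
      have h1 := ((expAt_spec ιC M 1 f₁).pow m).mul (hexpR hE₂)
      have h2 := ((expAt_spec ιC M 1 f₂).pow m).mul (hexpR hE₁)
      refine h1.unique ιC.injective (isParam_qN M) (h2.congr fun τ => ?_)
      simp only [Pi.mul_apply, Pi.pow_apply, one_smul, hf₁, hf₂]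
      ring
    -- conclusion
    apply Subtype.ext
    ext g
    have hval : ∀ {χ : G →* ℂˣ}, χ ^ m = 1 → ∃ z : Qb, z ^ m = 1 ∧ ιC z = (χ g : ℂ) := by
      intro χ hχ
      have h1 : ((χ g : ℂˣ) : ℂ) ^ m = 1 := by
        have h6 := congrArg (fun ψ : G →* ℂˣ => ((ψ g : ℂˣ) : ℂ)) hχ
        simpa only [MonoidHom.pow_apply, MonoidHom.one_apply, Units.val_pow_eq_pow_val,
          Units.val_one] using h6
      obtain ⟨z, hz1, hz2⟩ := LP.exists_root_of_pow_eq ιC hm (x := ((χ g : ℂˣ) : ℂ)) (y := 1)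
        one_ne_zero (by rw [h1, one_pow])
      exact ⟨z, hz1, by rw [hz2, mul_one]⟩
    obtain ⟨z₁, hz₁, hz₁'⟩ := hval χ₁.2.1
    obtain ⟨z₂, hz₂, hz₂'⟩ := hval χ₂.2.1
    have hpull : ∀ {χ : G →* ℂˣ} {F : ℍ → ℂ}, F ∈ mform χ (12 * n) → ∀ {f : modFun ιC M} {z : Qb},
        (f : ℍ → ℂ) = (fun τ => F τ / Δ τ ^ n) → ιC z = (χ g : ℂ) →
        pull ιC M (g : SL(2, ℤ)) f = algebraMap Qb _ z * f := by
      intro χ F hF f z hf hz
      ext τ
      change (f : ℍ → ℂ) ((g : SL(2, ℤ)) • τ) = ιC z * (f : ℍ → ℂ) τ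
      rw [hf, hz]
      exact div_smul_G hF g.2 τ
    have hzz : z₁ = z₂ := kl_core D hp hpM hl hA hlM hlm hf₁0 hf₂0 (hfin χ₁.2.1 hF₁ hf₁)
      (hfin χ₂.2.1 hF₂ hf₂) hf₁' hf₂' hR hR0 hRR hz₁ hz₂ (hpull hF₁ hf₁ hz₁')
      (hpull hF₂ hf₂ hz₂')
    rw [← hz₁', ← hz₂', hzz]
  by_cases h2 : l = 2
  · obtain ⟨D⟩ := exists_baseData3 hl A hA (by omega)
    exact key D Nat.prime_three (by omega)
  · obtain ⟨D⟩ := exists_baseData2 hl A hA h2
    exact key D Nat.prime_two h2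

/-- **The uniqueness lemma KL** for `Γ₀(N)`. -/
theorem klProp {N m : ℕ} [NeZero N] (hm : 0 < m) {l : ℕ} (hl : l.Prime) (hlN : ¬ l ∣ N)
    (hlm : ¬ l ∣ m) {A : ValuationSubring Qb} (hA : A.LiesOverPrime l) : KLProp N m A := by
  have hN : 0 < N := Nat.pos_of_ne_zero (NeZero.ne N)
  refine klPropG (G := Gamma0 N) hN hm ?_ ?_ hl hlN hlm hA ?_
  · intro g hg
    rw [Gamma_mem] at hg
    rw [Gamma0_mem]
    exact hg.2.2.1
  · rw [Gamma0_mem]; simp [ModularGroup.coe_T]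
  · intro M hM hNM
    haveI : NeZero M := ⟨hM⟩
    refine (bdProp_Gamma0 A M).mono ?_
    intro g hg
    rw [Gamma0_mem] at hg ⊢
    rw [ZMod.intCast_zmod_eq_zero_iff_dvd] at hg ⊢
    exact (Int.natCast_dvd_natCast.mpr hNM).trans hg

end Fermat.Agent.KL
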