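import Mathlib
import Fermat.Agent.KL.Field
import Fermat.Agent.ModFun.Gen
import Fermat.Agent.ESCore.AlgLaurent

set_option autoImplicit false

/-!
# Rationality at all cusps from rationality at infinity
-/

open Matrix.SpecialLinearGroup CongruenceSubgroup ModularGroup
open UpperHalfPlane hiding I J
open Polynomial Fermat.Agent.ModFun Fermat.Agent.ESCore
open scoped MatrixGroups Manifold IntermediateField

noncomputable section

namespace Fermat.Agent.KL

variable {M : ℕ} [NeZero M]

theorem expAt_C_JM (γ : SL(2, ℤ)) : expAt (RingHom.id ℂ) M γ (JM (RingHom.id ℂ) M) =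
    ModularCurve.coeffMap ιC (ModularCurve.qExpand Qb M (ModularCurve.jqModC Qb)) := by
  refine expAt_eq _ _ ?_
  refine HasExp.coeffMap (φ := ιC) ιC (RingHom.id_comp ιC) ?_
  exact ((hasExp_J' ιC).level M).congr fun τ => (J_smul γ τ).symm

/-- the relation over `ℂ` -/
theorem exists_relation_C {h : modFun (RingHom.id ℂ) M}
    (hfin : (Set.range fun γ => pull (RingHom.id ℂ) M γ h).Finite) :
    ∃ (d : ℕ) (p : ℕ → ℂ[X]), p d = 1 ∧
      ∑ n ∈ Finset.range (d + 1), aeval (JM (RingHom.id ℂ) M) (p n) * h ^ n = 0 := by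
  classical
  set S : Set (modFun (RingHom.id ℂ) M) := Set.range fun γ => pull (RingHom.id ℂ) M γ h with hSdef
  have hS : ∀ f ∈ S, ∀ γ, pull (RingHom.id ℂ) M γ f ∈ S := by
    rintro f ⟨δ, rfl⟩ γ
    exact ⟨δ * γ, (pull_pull (RingHom.id ℂ) M γ δ h).symm⟩
  set Q := polyS hfin with hQ
  have hmonic : Q.Monic := monic_prod_of_monic _ _ fun x _ => monic_X_sub_C x
  have hc : ∀ n, ∃ p : ℂ[X], Q.coeff n = aeval (JM (RingHom.id ℂ) M) p := by
    intro n
    exact exists_aeval_JM (RingHom.id ℂ) M (ζ := zetaC M) rfl fun γ => pull_coeff_polyS hfin hS γ n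
  choose p hp using hc
  refine ⟨Q.natDegree, fun n => if n = Q.natDegree then 1 else p n, if_pos rfl, ?_⟩
  have h1 : Q.eval h = 0 := by
    rw [hQ, polyS, eval_prod]
    refine Finset.prod_eq_zero (hfin.mem_toFinset.mpr ⟨1, pull_one _ _ h⟩) ?_
    rw [eval_sub, eval_X, eval_C, sub_self]
  rw [← h1, eval_eq_sum_range]
  refine Finset.sum_congr rfl fun n _ => ?_
  by_cases hn : n = Q.natDegree
  · simp only [if_pos hn]
    rw [map_one, hn, coeff_natDegree, hmonic.leadingCoeff]
  · simp only [if_neg hn]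
    rw [hp]

/-- descent of a linear relation between series with algebraic coefficients -/
theorem exists_relation_Qb {ι' : Type*} (s : Finset ι') (a : ι' → ℂ) (F : ι' → LaurentSeries Qb)
    (h : ∑ i ∈ s, HahnSeries.C (a i) * ModularCurve.coeffMap ιC (F i) = 0)
    (l : ℂ → Qb) (hl1 : ∀ x y, l (x + y) = l x + l y) (hl2 : ∀ x a, l (x * ιC a) = l x * a) :
    ∑ i ∈ s, HahnSeries.C (l (a i)) * F i = 0 := by
  classical
  ext k
  have hl0 : l 0 = 0 := by
    have := hl1 0 0
    rw [add_zero] at this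
    exact (left_eq_add.mp this)
  have h1 := congrArg (fun x : LaurentSeries ℂ => l (x.coeff k)) h
  simp only [HahnSeries.coeff_zero, hl0] at h1
  have hsum : ∀ (t : Finset ι') (g : ι' → ℂ), l (∑ i ∈ t, g i) = ∑ i ∈ t, l (g i) := by
    intro t g
    induction t using Finset.induction_on with
    | empty => simpa using hl0
    | insert b t hb ih => rw [Finset.sum_insert hb, Finset.sum_insert hb, hl1, ih]
  rw [HahnSeries.coeff_sum, hsum] at h1
  rw [HahnSeries.coeff_sum, HahnSeries.coeff_zero, ← h1]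
  refine Finset.sum_congr rfl fun i _ => ?_
  rw [HahnSeries.C_apply, HahnSeries.C_apply, HahnSeries.coeff_single_zero_mul,
    HahnSeries.coeff_single_zero_mul, ModularCurve.coeffMap_coeff, hl2]

/-- **Rationality at all cusps from rationality at infinity.** -/
theorem mem_modFun_of_infty {h : ℍ → ℂ} (hmem : h ∈ modFun (RingHom.id ℂ) M)
    (hfin : (Set.range fun γ => pull (RingHom.id ℂ) M γ ⟨h, hmem⟩).Finite)
    {H : LaurentSeries Qb} (hH : HasExp ιC (qN 1) h H) : h ∈ modFun ιC M := by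
  classical
  obtain ⟨l, hl1, hl2, hl3⟩ := exists_retraction ιC
  obtain ⟨d, p, hpd, hrel⟩ := exists_relation_C hfin
  set j : LaurentSeries Qb := ModularCurve.qExpand Qb M (ModularCurve.jqModC Qb) with hj
  set H' : LaurentSeries Qb := ModularCurve.qExpand Qb M H with hH'
  have hH'' : HasExp ιC (qN M) h H' := hH.level M
  have hJ'' : HasExp ιC (qN M) J j := (hasExp_J' ιC).level M
  -- the index set
  set I : Finset (Σ _ : ℕ, ℕ) := (Finset.range (d + 1)).sigma fun n =>
    Finset.range ((p n).natDegree + 1) with hI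
  have haeval : ∀ (n : ℕ) (x : modFun (RingHom.id ℂ) M),
      expAt (RingHom.id ℂ) M 1 (aeval x (p n)) =
      ∑ i ∈ Finset.range ((p n).natDegree + 1),
        HahnSeries.C ((p n).coeff i) * expAt (RingHom.id ℂ) M 1 x ^ i := by
    intro n x
    rw [aeval_eq_sum_range, map_sum]
    refine Finset.sum_congr rfl fun i _ => ?_
    rw [Algebra.smul_def, map_mul, map_pow, expAt_algebraMap]
  have h1 : ∑ x ∈ I, HahnSeries.C ((p x.1).coeff x.2) *
      ModularCurve.coeffMap ιC (j ^ x.2 * H' ^ x.1) = 0 := by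
    have h2 := congrArg (expAt (RingHom.id ℂ) M 1) hrel
    rw [map_sum, map_zero] at h2
    rw [hI, Finset.sum_sigma, ← h2]
    refine Finset.sum_congr rfl fun n _ => ?_
    rw [map_mul, haeval, Finset.sum_mul]
    refine Finset.sum_congr rfl fun i _ => ?_
    have h3 : expAt (RingHom.id ℂ) M 1 ⟨h, hmem⟩ = ModularCurve.coeffMap ιC H' := by
      refine expAt_eq _ _ ?_
      refine HasExp.coeffMap (φ := ιC) ιC (RingHom.id_comp ιC) ?_
      exact hH''.congr fun τ => by rw [one_smul]
    rw [expAt_C_JM, map_mul, map_pow, map_pow, map_pow, h3, mul_assoc]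
  have h2 := exists_relation_Qb I _ _ h1 l hl1 hl2
  -- the relation between functions
  have h3 : ∀ τ, ∑ x ∈ I, ιC (l ((p x.1).coeff x.2)) * (J τ ^ x.2 * h τ ^ x.1) = 0 := by
    have h4 : HasExp ιC (qN M) (∑ x ∈ I, fun τ => ιC (l ((p x.1).coeff x.2)) *
        ((J ^ x.2 * h ^ x.1) τ)) (∑ x ∈ I, HahnSeries.C (l ((p x.1).coeff x.2)) *
        (j ^ x.2 * H' ^ x.1)) :=
      HasExp.sum I fun x _ => ((hJ''.pow x.2).mul (hH''.pow x.1)).smul _
    rw [h2] at h4
    have h5 := h4.fun_unique (qN_ne_zero M) hasExp_zero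
    intro τ
    have h6 := congrFun h5 τ
    rw [Finset.sum_apply] at h6
    exact h6
  refine ⟨hmem.1, fun γ => ?_⟩
  obtain ⟨Y, hY⟩ := hmem.2 γ
  have hJγ : HasExp (RingHom.id ℂ) (qN M) (fun τ => J (γ • τ)) (ModularCurve.coeffMap ιC j) := by
    refine HasExp.coeffMap (φ := ιC) ιC (RingHom.id_comp ιC) ?_
    exact hJ''.congr fun τ => (J_smul γ τ).symm
  have h4 : ∑ x ∈ I, HahnSeries.C (ιC (l ((p x.1).coeff x.2))) *
      (ModularCurve.coeffMap ιC j ^ x.2 * Y ^ x.1) = 0 := by
    have h5 : HasExp (RingHom.id ℂ) (qN M) (∑ x ∈ I, fun τ =>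
        (RingHom.id ℂ) (ιC (l ((p x.1).coeff x.2))) *
        (((fun τ => J (γ • τ)) ^ x.2 * (fun τ => h (γ • τ)) ^ x.1) τ))
        (∑ x ∈ I, HahnSeries.C (ιC (l ((p x.1).coeff x.2))) *
        (ModularCurve.coeffMap ιC j ^ x.2 * Y ^ x.1)) :=
      HasExp.sum I fun x _ => ((hJγ.pow x.2).mul (hY.pow x.1)).smul _
    refine h5.unique (RingHom.id ℂ).injective (isParam_qN M) (hasExp_zero.congr fun τ => ?_)
    rw [Finset.sum_apply]
    exact (h3 (γ • τ)).symm
  -- the polynomial
  set f : Polynomial (LaurentSeries Qb) := ∑ x ∈ I,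
    C (HahnSeries.C (l ((p x.1).coeff x.2)) * j ^ x.2) * X ^ x.1 with hf
  have hf0 : f ≠ 0 := by
    intro h0
    have h5 : f.coeff d = 1 := by
      rw [hf, hI, Finset.sum_sigma, finsetSum_coeff]
      rw [Finset.sum_eq_single d]
      · have h7 : (p d).natDegree = 0 := by rw [hpd, natDegree_one]
        have h8 : l ((p d).coeff 0) = 1 := by rw [hpd, coeff_one_zero, hl3]
        rw [h7, zero_add, Finset.sum_range_one]
        simp only
        rw [h8, map_one, pow_zero, mul_one, C_1, one_mul, coeff_X_pow_self]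
      · intro n _ hn
        rw [finsetSum_coeff]
        refine Finset.sum_eq_zero fun i _ => ?_
        rw [coeff_C_mul, coeff_X_pow, if_neg (Ne.symm hn), mul_zero]
      · intro hd
        exact absurd (Finset.mem_range.mpr (Nat.lt_succ_self d)) hd
    rw [h0, coeff_zero] at h5
    exact zero_ne_one h5
  obtain ⟨Z, hZ⟩ := exists_coeffMap_of_root (x := Y) hf0 (by
    rw [hf, eval₂_finsetSum, ← h4]
    refine Finset.sum_congr rfl fun x _ => ?_
    rw [eval₂_mul, eval₂_C, eval₂_X_pow, map_mul, map_pow, mul_assoc]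
    congr 1
    ext k
    rw [ModularCurve.coeffMap_coeff, HahnSeries.C_apply, HahnSeries.C_apply]
    by_cases hk : k = 0
    · subst hk
      rw [HahnSeries.coeff_single_same, HahnSeries.coeff_single_same]
    · rw [HahnSeries.coeff_single_of_ne hk, HahnSeries.coeff_single_of_ne hk, map_zero])
  refine ⟨Z, ?_⟩
  rw [← hasExp_coeffMap_iff ιC (RingHom.id_comp ιC), hZ]
  exact hY

end Fermat.Agent.KL
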