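import Mathlib
import Fermat.Agent.KL.Final
import Fermat.Agent.KL.Ratl
import Fermat.Agent.ESCore.GalG3

set_option autoImplicit false

/-!
# Bounded denominators for `Γ(M)` from integrality of cusp forms on `Γ₁(M²)`
-/

open Matrix.SpecialLinearGroup CongruenceSubgroup ModularGroup Filter
open UpperHalfPlane hiding I J
open Polynomial Fermat.Agent.ModFun Fermat.Agent.ESCore Fermat.Agent.ESCore.Gal Fermat.Agent.LP
open scoped MatrixGroups Manifold IntermediateField ModularForm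

noncomputable section

namespace Fermat.Agent.KL

local notation "Δ" => ModularForm.discriminant

/-- Multiplying by a high power of `Δ` kills the poles -/
theorem exists_isZero {M : ℕ} [NeZero M] {f : ℍ → ℂ} {F : LaurentSeries ℂ}
    (hF : HasExp (RingHom.id ℂ) (qN M) f F) :
    ∃ k₀ : ℕ, ∀ k ≥ k₀, Tendsto (fun τ => Δ τ ^ k * f τ) atImInfty (nhds 0) := by
  by_cases hF0 : F = 0
  · rw [hF0] at hF
    have h1 : f = 0 := hF.fun_unique (qN_ne_zero M) hasExp_zero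
    refine ⟨0, fun k _ => ?_⟩
    rw [h1]
    simp
  set D : LaurentSeries ℂ := ModularCurve.qExpand ℂ M dSC with hD
  have hDexp : HasExp (RingHom.id ℂ) (qN M) Δ D := hasExp_disc.level M
  have hMpos : 0 < (M : ℤ) := by exact_mod_cast Nat.pos_of_ne_zero (NeZero.ne M)
  have hlead : LeadU D (M * 1) := (leadU_dSeries.coeffMap (Int.castRingHom ℂ)).qExpand M
  have hlead' : ∀ k : ℕ, LeadU (D ^ k) (M * k) := by
    intro k
    induction k with
    | zero =>
      rw [pow_zero, Nat.cast_zero, mul_zero]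
      have := LeadU.C (R := ℂ) (a := 1) isUnit_one
      rwa [map_one] at this
    | succ k ih =>
      rw [pow_succ]
      have := ih.mul hlead
      convert this using 1
      push_cast
      ring
  refine ⟨F.order.natAbs + 1, fun k hk => ?_⟩
  have h1 := (hDexp.pow k).mul hF
  have hF' : ∀ m ≤ 0, (D ^ k * F).coeff m = 0 := by
    intro m hm
    have hDk : D ^ k ≠ 0 := (hlead' k).ne_zero
    apply HahnSeries.coeff_eq_zero_of_lt_order
    rw [HahnSeries.order_mul hDk hF0, (hlead' k).order_eq]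
    have h2 : (F.order.natAbs : ℤ) + 1 ≤ k := by exact_mod_cast hk
    have h3 : (k : ℤ) ≤ M * k := le_mul_of_one_le_left (by positivity) (by omega)
    omega
  have h2 := h1.tendsto fun m hm => hF' m hm.le
  rw [hF' 0 le_rfl, map_zero] at h2
  exact h2

/-- expansions of `g (a τ + b) / d` -/
theorem exists_exp_tri {M : ℕ} [NeZero M] {f : ℍ → ℂ} {F : LaurentSeries ℂ}
    (hF : HasExp (RingHom.id ℂ) (qN M) f F) (a d : ℕ) [NeZero a] [NeZero d] (b : ℤ) :
    ∃ (M' : ℕ) (_ : NeZero M') (F' : LaurentSeries ℂ),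
      HasExp (RingHom.id ℂ) (qN M') (fun τ => f (tri a b d τ)) F' := by
  haveI : NeZero (M * d) := ⟨mul_ne_zero (NeZero.ne M) (NeZero.ne d)⟩
  set u : ℂˣ := Units.mk0 (Complex.exp (2 * Real.pi * Complex.I * b / (M * d)))
    (Complex.exp_ne_zero _) with hu
  have h1 : HasExp (RingHom.id ℂ) (fun τ => qN (M * d) τ ^ a) (fun τ => f (tri a b d τ))
      (Fermat.Agent.ModFun.twist u F) := by
    refine hF.twist (s' := fun τ => qN (M * d) τ ^ a) _ (fun τ => tri a b d τ) ?_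
    intro τ
    have hM : (M : ℂ) ≠ 0 := by exact_mod_cast NeZero.ne M
    have hd : (d : ℂ) ≠ 0 := by exact_mod_cast NeZero.ne d
    rw [hu, Units.val_mk0, RingHom.id_apply, qN_apply, qN_apply, Function.Periodic.qParam,
      Function.Periodic.qParam, ← Complex.exp_nat_mul, ← Complex.exp_add, coe_tri]
    congr 1
    push_cast
    field_simp
    ring
  exact ⟨M * d, inferInstance, _, h1.qExpand (s' := qN (M * d)) a (fun τ => τ) (fun τ => rfl)⟩

/-- `h (M τ)` is invariant under `Γ₁(M²)` -/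
theorem invariant_tri {M : ℕ} [NeZero M] {h : ℍ → ℂ}
    (hinv : ∀ g ∈ Gamma M, ∀ τ, h (g • τ) = h τ) {σ : SL(2, ℤ)} (hσ : σ ∈ Gamma1 (M * M))
    (τ : ℍ) : h (tri M 0 1 (σ • τ)) = h (tri M 0 1 τ) := by
  rw [Gamma1_mem] at hσ
  obtain ⟨h1, h2, h3⟩ := hσ
  have hMM : ((M : ℤ) * M) ∣ σ 1 0 := by
    have := (ZMod.intCast_zmod_eq_zero_iff_dvd (σ 1 0) (M * M)).mp h3
    push_cast at this
    exact this
  obtain ⟨c, hc⟩ := hMM
  have hdet := σ.det_coe
  rw [Matrix.det_fin_two] at hdet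
  let σ' : SL(2, ℤ) := ⟨!![σ 0 0, M * σ 0 1; M * c, σ 1 1], by
    rw [Matrix.det_fin_two_of]
    rw [hc] at hdet
    linear_combination hdet⟩
  have e1 : σ' 0 0 = σ 0 0 := rfl
  have e2 : σ' 0 1 = M * σ 0 1 := rfl
  have e3 : σ' 1 0 = M * c := rfl
  have e4 : σ' 1 1 = σ 1 1 := rfl
  have hM1 : ∀ {a : ℤ}, ((a : ℤ) : ZMod (M * M)) = 1 → ((a : ℤ) : ZMod M) = 1 := by
    intro a ha
    have h5 := congrArg (ZMod.castHom (Dvd.intro M rfl : M ∣ M * M) (ZMod M)) ha
    rwa [map_intCast, map_one] at h5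
  have hσ' : σ' ∈ Gamma M := by
    rw [Gamma_mem]
    refine ⟨?_, ?_, ?_, ?_⟩
    · rw [e1]; exact hM1 h1
    · rw [e2]; simp
    · rw [e3]; simp
    · rw [e4]; exact hM1 h2
  have h4 : tri M 0 1 (σ • τ) = σ' • tri M 0 1 τ := by
    have h6 := tri_smul (d := M) (γ := σ) (γ' := σ') (a := M) (d' := 1) (b := 0)
      (by rw [e1]; ring) (by rw [e2]; push_cast; ring) (by rw [e3, hc]; ring)
      (by rw [e4]; push_cast; ring) τ
    exact h6
  rw [h4, hinv σ' hσ']

theorem ofPS_of_neg {R : Type*} [CommRing R] {F : LaurentSeries R} (h : ∀ j < 0, F.coeff j = 0) :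
    F = HahnSeries.ofPowerSeries ℤ R (PowerSeries.mk fun n : ℕ => F.coeff (n : ℤ)) := by
  ext n
  rcases lt_or_ge n 0 with hn | hn
  · rw [ModularCurve.ofPowerSeries_coeff_of_neg _ hn, h n hn]
  · obtain ⟨k, rfl⟩ := Int.eq_ofNat_of_zero_le hn
    rw [HahnSeries.ofPowerSeries_apply_coeff, PowerSeries.coeff_mk]

/-- **Bounded denominators for `Γ(M)`.** -/
theorem bd_of_fg {M : ℕ} [NeZero M] (hFg : FgCoeff (Gamma1 (M * M))) (A : ValuationSubring Qb)
    {h : ℍ → ℂ} (hmem : h ∈ modFun ιC M) (hinv : ∀ g ∈ Gamma M, ∀ τ, h (g • τ) = h τ) :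
    ∃ X ∈ qLS A, HasExp ιC (qN M) h X := by
  classical
  haveI : NeZero (M * M) := ⟨mul_ne_zero (NeZero.ne M) (NeZero.ne M)⟩
  obtain ⟨X, hX⟩ : ∃ X : LaurentSeries Qb, HasExp ιC (qN M) h X := by
    obtain ⟨X, hX⟩ := hmem.2 1
    exact ⟨X, hX.congr fun τ => by rw [one_smul]⟩
  refine ⟨X, ?_, hX⟩
  by_cases hX0 : X = 0
  · rw [hX0]; exact zero_mem _
  set g : ℍ → ℂ := fun τ => h (tri M 0 1 τ) with hg
  have hginv : ∀ σ ∈ Gamma1 (M * M), ∀ τ, g (σ • τ) = g τ := fun σ hσ τ => invariant_tri hinv hσ τ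
  have hgm : MDiff g := mdiff_tri M 0 1 hmem.1
  -- expansions of `g` at all cusps
  have hgexp : ∀ B : SL(2, ℤ), ∃ k₀ : ℕ, ∀ k ≥ k₀,
      Tendsto (fun τ => Δ τ ^ k * g (B • τ)) atImInfty (nhds 0) := by
    intro B
    obtain ⟨B', a, d', b, ha, had, h1, h2, h3, h4⟩ := exists_hermite M B
    haveI : NeZero a := ⟨ha.ne'⟩
    haveI : NeZero d' := ⟨by rintro rfl; exact NeZero.ne M (by rw [← had, mul_zero])⟩
    obtain ⟨F, hF⟩ := hmem.2 B'
    obtain ⟨M', _, F', hF'⟩ := exists_exp_tri (hF.coeffMap ιC (RingHom.id_comp ιC)) a d' b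
    obtain ⟨k₀, hk₀⟩ := exists_isZero hF'
    refine ⟨k₀, fun k hk => ?_⟩
    refine (hk₀ k hk).congr fun τ => ?_
    rw [hg]
    simp only
    rw [tri_smul h1 h2 h3 h4]
  -- uniform power
  obtain ⟨k, hk⟩ : ∃ k : ℕ, ∀ B : SL(2, ℤ),
      Tendsto (fun τ => Δ τ ^ k * g (B • τ)) atImInfty (nhds 0) := by
    choose k₀ hk₀ using hgexp
    haveI := Fintype.ofFinite (SL(2, ℤ) ⧸ Gamma1 (M * M))
    refine ⟨∑ x : SL(2, ℤ) ⧸ Gamma1 (M * M), k₀ (x.out)⁻¹, fun B => ?_⟩
    obtain ⟨c, hc⟩ := QuotientGroup.mk_out_eq_mul (Gamma1 (M * M)) B⁻¹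
    have h1 : ∀ τ, g (B • τ) = g ((((B⁻¹ : SL(2, ℤ)) : SL(2, ℤ) ⧸ Gamma1 (M * M)).out)⁻¹ • τ) := by
      intro τ
      rw [hc, mul_inv_rev, inv_inv, mul_smul, hginv _ (inv_mem c.2)]
    simp only [h1]
    refine hk₀ _ _ ?_
    exact Finset.single_le_sum (f := fun x : SL(2, ℤ) ⧸ Gamma1 (M * M) => k₀ (x.out)⁻¹)
      (fun _ _ => Nat.zero_le _) (Finset.mem_univ _)
  -- the cusp form
  set f : ℍ → ℂ := fun τ => Δ τ ^ k * g τ with hf
  have hΔ := fun τ : ℍ => pow_ne_zero k (ModularForm.discriminant_ne_zero τ)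
  have hslash : ∀ B : SL(2, ℤ), f ∣[(12 * k : ℤ)] B = fun τ => Δ τ ^ k * g (B • τ) := by
    intro B
    ext τ
    have h1 := div_smul_eq f k B τ
    have h2 : f (B • τ) / Δ (B • τ) ^ k = g (B • τ) := by
      rw [hf]
      simp only
      rw [mul_div_cancel_left₀ _ (hΔ _)]
    rw [h2, eq_div_iff (hΔ τ)] at h1
    rw [← h1, mul_comm]
  have hfm : f ∈ mform (1 : Gamma1 (M * M) →* ℂˣ) (12 * k) := by
    refine ⟨(mdiff_discriminant.pow k).mul hgm, fun σ => ?_, fun B => ?_⟩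
    · rw [hslash, MonoidHom.one_apply, Units.val_one, one_smul]
      ext τ
      rw [hginv _ σ.2]
    · rw [hslash]
      exact (hk B).isBigO_one ℝ
  obtain ⟨W, hW, hWc⟩ := hFg k f hfm fun B => by rw [hslash]; exact hk B
  -- the expansion of `f`
  have hgX : HasExp ιC (qN 1) g X := by
    refine hasExp_comp hX (fun τ => tri M 0 1 τ) fun τ => ?_
    have hM : (M : ℂ) ≠ 0 := by exact_mod_cast NeZero.ne M
    rw [qN_apply, qN_apply, Function.Periodic.qParam, Function.Periodic.qParam, coe_tri]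
    congr 1
    push_cast
    field_simp
    ring
  set D : LaurentSeries Qb := ModularCurve.coeffMap (Int.castRingHom Qb) dSeries with hD
  have hDexp : HasExp ιC (qN 1) Δ D :=
    hasExp_discriminant.coeffMap (Int.castRingHom Qb) (RingHom.ext_int _ _)
  have hD0 : D ≠ 0 := (leadU_dSeries.coeffMap (Int.castRingHom Qb)).ne_zero
  have hDA : D ∈ qLS A := by
    have h1 : D = mapLS (algebraMap A Qb) (ModularCurve.coeffMap (Int.castRingHom A) dSeries) := by
      rw [mapLS_eq_coeffMap, ModularCurve.coeffMap_coeffMap]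
      exact ModularCurve.coeffMap_congr (RingHom.ext_int _ _) _
    rw [h1]
    exact mapLS_mem_qLS A _
  set Z : LaurentSeries Qb := D ^ k * X with hZ
  have hfZ : HasExp ιC (qN 1) f Z := (hDexp.pow k).mul hgX
  have hfQ : HasExp (RingHom.id ℂ) (qN 1) f (HahnSeries.ofPowerSeries ℤ ℂ (qExpansion 1 f)) := by
    apply hasExp_of_hasQ
    refine hasQ_mform_G (G := Gamma1 (M * M)) ?_ (χ := 1) (fun g _ => rfl) hfm
    rw [Gamma1_mem]
    simp [ModularGroup.coe_T]
  have hZc : ModularCurve.coeffMap ιC Z = HahnSeries.ofPowerSeries ℤ ℂ (qExpansion 1 f) :=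
    (hfZ.coeffMap ιC (RingHom.id_comp ιC)).unique (RingHom.id ℂ).injective (isParam_qN 1) hfQ
  have hZneg : ∀ j < 0, Z.coeff j = 0 := by
    intro j hj
    have h1 := congrArg (fun x : LaurentSeries ℂ => x.coeff j) hZc
    simp only [ModularCurve.coeffMap_coeff] at h1
    rw [ModularCurve.ofPowerSeries_coeff_of_neg _ hj, map_eq_zero] at h1
    exact h1
  have hZP := ofPS_of_neg hZneg
  set P : PowerSeries Qb := PowerSeries.mk fun n : ℕ => Z.coeff (n : ℤ) with hP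
  have hPc : ∀ n, ιC (P.coeff n) ∈ W := by
    intro n
    have h1 := congrArg (fun x : LaurentSeries ℂ => x.coeff (n : ℤ)) hZc
    simp only [ModularCurve.coeffMap_coeff, HahnSeries.ofPowerSeries_apply_coeff] at h1
    rw [hP, PowerSeries.coeff_mk, h1]
    exact hWc n
  have hZ0 : Z ≠ 0 := mul_ne_zero (pow_ne_zero _ hD0) hX0
  have hP0 : P ≠ 0 := by
    intro h0
    rw [h0, map_zero] at hZP
    exact hZ0 hZP
  obtain ⟨a, ha, P', hP', -⟩ := exists_scale_of_fg A hP0 hW hPc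
  have hZmem : Z ∈ qLS A := by
    have h1 : HahnSeries.C a * Z = mapLS (algebraMap A Qb) (HahnSeries.ofPowerSeries ℤ A P') := by
      rw [mapLS_eq_coeffMap, coeffMap_ofPS, hZP]
      have h2 : P'.map (algebraMap A Qb) = a • P := hP'
      rw [h2]
      ext n
      rw [HahnSeries.C_apply, HahnSeries.coeff_single_zero_mul]
      rcases lt_or_ge n 0 with hn | hn
      · rw [ModularCurve.ofPowerSeries_coeff_of_neg _ hn,
          ModularCurve.ofPowerSeries_coeff_of_neg _ hn, mul_zero]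
      · obtain ⟨k, rfl⟩ := Int.eq_ofNat_of_zero_le hn
        rw [HahnSeries.ofPowerSeries_apply_coeff, HahnSeries.ofPowerSeries_apply_coeff,
          PowerSeries.coeff_smul, smul_eq_mul]
    have hCa : (HahnSeries.C a : LaurentSeries Qb) ≠ 0 := by
      rwa [Ne, map_eq_zero_iff _ HahnSeries.C_injective]
    have h2 : Z = (HahnSeries.C a)⁻¹ * (HahnSeries.C a * Z) := by
      rw [← mul_assoc, inv_mul_cancel₀ hCa, one_mul]
    rw [h2, h1]
    exact mul_mem (inv_mem (C_mem_qLS A a)) (mapLS_mem_qLS A _)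
  have h1 : X = (D ^ k)⁻¹ * Z := by
    rw [hZ, ← mul_assoc, inv_mul_cancel₀ (pow_ne_zero _ hD0), one_mul]
  rw [h1]
  exact mul_mem (inv_mem (pow_mem hDA k)) hZmem

/-- Bounded denominators for groups containing `Γ(M)`. -/
theorem bdProp_of_fg {G : Subgroup SL(2, ℤ)} [G.FiniteIndex] {M : ℕ} [NeZero M]
    (hΓ : Gamma M ≤ G) (hFg : FgCoeff (Gamma1 (M * M))) (A : ValuationSubring Qb) :
    BDProp G M A := by
  rintro h hmem hinv ⟨H, hH⟩ γ
  have hfin : (Set.range fun γ => pull (RingHom.id ℂ) M γ ⟨h, hmem⟩).Finite := by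
    refine (Set.finite_range (fun x : SL(2, ℤ) ⧸ G =>
      pull (RingHom.id ℂ) M (x.out)⁻¹ ⟨h, hmem⟩)).subset ?_
    rintro _ ⟨γ, rfl⟩
    refine ⟨((γ⁻¹ : SL(2, ℤ)) : SL(2, ℤ) ⧸ G), ?_⟩
    obtain ⟨g, hg⟩ := QuotientGroup.mk_out_eq_mul G γ⁻¹
    simp only
    rw [hg]
    ext τ
    rw [pull_apply, pull_apply, mul_inv_rev, inv_inv, mul_smul]
    exact hinv _ (inv_mem g.2) _
  have h1 := mem_modFun_of_infty hmem hfin hH
  refine bd_of_fg hFg A (ModFun.smul_mem_modFun h1 γ) fun g hg τ => ?_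
  have h2 : γ * g * γ⁻¹ ∈ G := hΓ ((Gamma_normal M).conj_mem _ hg γ)
  have h3 := hinv _ h2 (γ • τ)
  rw [← mul_smul, inv_mul_cancel_right, mul_smul] at h3
  exact h3

/-- **The uniqueness lemma KL** for `G ⊇ Γ₁(N)`, from integrality of cusp forms. -/
theorem klPropG_of_fg {G : Subgroup SL(2, ℤ)} {N m : ℕ} (hN : 0 < N) (hm : 0 < m)
    (h1 : Gamma1 N ≤ G) (hFg : ∀ M : ℕ, 0 < M → FgCoeff (Gamma1 M)) {l : ℕ} (hl : l.Prime)
    (hlN : ¬ l ∣ N) (hlm : ¬ l ∣ m) {A : ValuationSubring Qb} (hA : A.LiesOverPrime l) :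
    Gal.KLPropG G m A := by
  haveI : NeZero N := ⟨hN.ne'⟩
  haveI : G.FiniteIndex := Subgroup.finiteIndex_of_le h1
  have hΓ1 : ∀ M : ℕ, Gamma M ≤ Gamma1 M := by
    intro M g hg
    rw [Gamma_mem] at hg
    rw [Gamma1_mem]
    exact ⟨hg.1, hg.2.2.2, hg.2.2.1⟩
  refine klPropG hN hm ((hΓ1 N).trans h1) (h1 (by
    rw [Gamma1_mem]; simp [ModularGroup.coe_T])) hl hlN hlm hA fun M hM hNM => ?_
  haveI : NeZero M := ⟨hM⟩
  refine bdProp_of_fg ?_ (hFg _ (Nat.mul_pos (Nat.pos_of_ne_zero hM) (Nat.pos_of_ne_zero hM))) A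
  refine le_trans ?_ ((hΓ1 N).trans h1)
  intro g hg
  rw [Gamma_mem] at hg ⊢
  have hc : ∀ {a b : ℤ}, ((a : ℤ) : ZMod M) = b → ((a : ℤ) : ZMod N) = b := by
    intro a b ha
    have h5 := congrArg (ZMod.castHom hNM (ZMod N)) ha
    rwa [map_intCast, map_intCast] at h5
  refine ⟨?_, ?_, ?_, ?_⟩
  · have := hc (b := 1) (by rw [hg.1]; simp)
    simpa using this
  · have := hc (b := 0) (by rw [hg.2.1]; simp)
    simpa using this
  · have := hc (b := 0) (by rw [hg.2.2.1]; simp)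
    simpa using this
  · have := hc (b := 1) (by rw [hg.2.2.2]; simp)
    simpa using this

end Fermat.Agent.KL
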